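import Fermat.Agent.H23.ORD.NmLattice
import Fermat.Agent.H18.ORD.NodalDivDefs

/-!
# P-ORD, block B1-LIFT (helper23): the pair lattice statement `PairG3On` for `nmG`

`nm_pairG3On` : `Fermat.Agent.H18.ORD.PairG3On (nmG htot) V` for every finite-dimensional `V`
(input (2) of helper18's (PAIR-SEMI), findings #578), from `NmSoftStatement M p` only.
`nodal_pairG3On` : the abstract form, from the two single lattice statements (G3).
-/

set_option autoImplicit false
set_option linter.unusedSectionVars false

noncomputable section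

open AlgebraicCurve ModularCurve

namespace Fermat.Agent.H23.ORD

open Fermat.Agent.H72.FF Fermat.Agent.H18.ORD Fermat.Agent.H66 Fermat.Agent.H84.ORD

/-- **`PairG3On` for the nodal data `nmG` of `X₀(M p)`.** -/
theorem nm_pairG3On (M p : ℕ) [NeZero M] [NeZero p] (hSoft : NmSoftStatement M p)
    (A : ValuationSubring Qb) (h : NmSetup M p A) (htot : NmTot M p h.cop A)
    (V : Submodule Qb (FLb (M * p))) (hV : FiniteDimensional Qb V) :
    PairG3On (nmG htot) V :=
  nmPairG3 M p hSoft A h V hV

/-- **`PairG3On` abstractly**, from `NodalRvHyp` and the two single lattice statements (G3). -/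
theorem nodal_pairG3On {N p : ℕ} {A : ValuationSubring Qb} {Foo F0 : Type} [Field Foo]
    [Field F0] [Algebra (kRes A) Foo] [Algebra (kRes A) F0] {ι : Type}
    {G : NodalData N A Foo F0 ι} (H : NodalRvHyp p G)
    (hoo : ∀ V : Submodule Qb (FLb N), FiniteDimensional Qb V →
      ∃ u : Fin (Module.finrank Qb V) → G.Voo, (∀ i, ((u i : G.Voo) : FLb N) ∈ V) ∧
        LinearIndependent (kRes A) (fun i => G.redOo (u i)))
    (hz : ∀ V : Submodule Qb (FLb N), FiniteDimensional Qb V →
      ∃ u : Fin (Module.finrank Qb V) → G.V0, (∀ i, ((u i : G.V0) : FLb N) ∈ V) ∧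
        LinearIndependent (kRes A) (fun i => G.red0 (u i)))
    (V : Submodule Qb (FLb N)) (hV : FiniteDimensional Qb V) : PairG3On G V :=
  pairG3_abs (fun c hc => (H.const_oo c).2 hc) H.red_const_oo
    (fun c hc => (H.const_zero c).2 hc) H.red_const_zero hoo hz V hV

end Fermat.Agent.H23.ORD
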