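import Mathlib

/-!
# P-ORD, block B1 (helper23): the PAIR lattice statement (G3) from the two single ones

Abstract form (Mathlib only).  `K` a field with a valuation subring `A` (residue field `k`), `F` a
`K`-algebra which is a field, `Va`, `Vb` two subrings of `F` containing `A`, with reductions
`ra : Va →+* Fa`, `rb : Vb →+* Fb` compatible with the residue map of `A`.

If every finite-dimensional `K`-subspace `V` of `F` has `dim V` elements of `V ∩ Va` with
`k`-linearly independent reductions, and the same for `Vb` (the lattice statements of type (G3) of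
the two valuations), then every finite-dimensional `V` has `dim V` elements of `V ∩ Va ∩ Vb`
whose PAIRS of reductions are `k`-linearly independent in `Fa × Fb` (`pairG3_abs`).

Proof: induction on `dim V`.  Let `e` be a `Va`-orthonormal basis of `V`, `f` a `Vb`-orthonormal
basis, `f_j = ∑ T_ij e_i`.  If all `T_ij ∈ A`, then `f` is in `Va ∩ Vb` and its pairs of
reductions are independent (second components).  Otherwise let `c = T_(i₀ j₀)` be an entry of
least valuation (`c ∉ A`): `g = c⁻¹ f_j₀` lies in `Va ∩ Vb`, its `e_i₀`-coordinate is `1` and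
`rb g = 0`; the induction hypothesis for `V' = span {e_i | i ≠ i₀}` gives `g₁, …, g_d`, and
`(g, g₁, …, g_d)` is pair-independent because the `e`-coordinates of an element of `V ∩ Va` lie
in `A` and its reduction is the reduced combination of the `ra e_i`.
-/

set_option autoImplicit false

namespace Fermat.Agent.H23.ORD

open IsLocalRing

section Dominant

variable {K : Type*} [Field K] (A : ValuationSubring K)

/-- In a finite family of elements of `K`, not all zero, some nonzero member divides all the
others in `A`. -/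
theorem pg_exists_dominant {ι : Type*} [Finite ι] (c : ι → K) (h : ∃ i, c i ≠ 0) :
    ∃ i₀, c i₀ ≠ 0 ∧ ∀ i, c i * (c i₀)⁻¹ ∈ A := by
  classical
  cases nonempty_fintype ι
  obtain ⟨i1, hi1⟩ := h
  obtain ⟨i₀, -, hmax⟩ := Finset.exists_max_image Finset.univ (fun i => A.valuation (c i))
    ⟨i1, Finset.mem_univ _⟩
  have h0 : c i₀ ≠ 0 := by
    intro h0
    have h1 := hmax i1 (Finset.mem_univ _)
    rw [h0, map_zero] at h1
    exact hi1 ((map_eq_zero _).1 (le_antisymm h1 zero_le))
  refine ⟨i₀, h0, fun i => ?_⟩
  rw [← A.valuation_le_one_iff, map_mul, map_inv₀]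
  have h1 := hmax i (Finset.mem_univ _)
  have h2 : A.valuation (c i₀) ≠ 0 := (map_ne_zero _).2 h0
  calc A.valuation (c i) * (A.valuation (c i₀))⁻¹
      ≤ A.valuation (c i₀) * (A.valuation (c i₀))⁻¹ := mul_le_mul_left h1 _
    _ = 1 := mul_inv_cancel₀ h2

/-- the inverse of an element outside `A` is a nonunit of `A` -/
theorem pg_inv_mem_nonunits {x : K} (hx : x ∉ A) : x⁻¹ ∈ A.nonunits := by
  rw [A.mem_nonunits_iff_exists_mem_maximalIdeal]
  have hxA : x⁻¹ ∈ A := by
    rcases A.mem_or_inv_mem x with h | h
    · exact absurd h hx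
    · exact h
  refine ⟨hxA, ?_⟩
  rw [IsLocalRing.mem_maximalIdeal, mem_nonunits_iff]
  intro hu
  apply hx
  obtain ⟨b, hb⟩ := isUnit_iff_exists_inv.1 hu
  have h3 : x⁻¹ * (b : K) = 1 := by
    have := congrArg (fun y : A => (y : K)) hb
    simpa using this
  have hx0 : x ≠ 0 := by
    rintro rfl
    exact hx A.zero_mem
  have h4 : (b : K) = x := by
    have h5 : x * (x⁻¹ * (b : K)) = x * 1 := by rw [h3]
    rw [← mul_assoc, mul_inv_cancel₀ hx0, one_mul, mul_one] at h5
    exact h5
  rw [← h4]
  exact b.2

theorem pg_residue_eq_zero {x : K} (hx : x ∈ A.nonunits) (h : x ∈ A) :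
    residue A ⟨x, h⟩ = 0 := by
  rw [IsLocalRing.residue_eq_zero_iff]
  obtain ⟨h', hm⟩ := (A.mem_nonunits_iff_exists_mem_maximalIdeal).1 hx
  exact hm

end Dominant

section Single

variable {K : Type*} [Field K] {A : ValuationSubring K}
  {F : Type*} [Field F] [Algebra K F]
  {Fa : Type*} [Field Fa] [Algebra (ResidueField A) Fa]
  {Va : Subring F} {ra : Va →+* Fa}

/-- the reduction of an `A`-linear combination of elements of `Va` -/
theorem pg_red_sum
    (hc : ∀ c : K, c ∈ A → algebraMap K F c ∈ Va)
    (hr : ∀ (c : A) (h : algebraMap K F (c : K) ∈ Va),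
      ra ⟨_, h⟩ = algebraMap (ResidueField A) Fa (residue A c))
    {n : ℕ} (e : Fin n → Va) (b : Fin n → A)
    (h : ∑ i, algebraMap K F (b i : K) * (e i : F) ∈ Va) :
    ra ⟨_, h⟩ = ∑ i, residue A (b i) • ra (e i) := by
  have e1 : (⟨_, h⟩ : Va) = ∑ i, (⟨algebraMap K F (b i : K), hc _ (b i).2⟩ : Va) * e i := by
    apply Subtype.ext
    simp only [Subring.coe_mul, AddSubmonoidClass.coe_finsetSum]
  rw [e1, map_sum]
  refine Finset.sum_congr rfl fun i _ => ?_
  rw [map_mul, hr (b i), Algebra.smul_def]

/-- an `A`-linear combination of elements of `Va` lies in `Va` -/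
theorem pg_sum_mem (hc : ∀ c : K, c ∈ A → algebraMap K F c ∈ Va)
    {n : ℕ} (e : Fin n → Va) (b : Fin n → K) (hb : ∀ i, b i ∈ A) :
    ∑ i, algebraMap K F (b i) * (e i : F) ∈ Va :=
  Va.sum_mem fun i _ => Va.mul_mem (hc _ (hb i)) (e i).2

/-- **Integrality of the coordinates.**  If the reductions of `e₁, …, e_n ∈ Va` are
`k`-linearly independent and `∑ c_i e_i ∈ Va`, then all `c_i ∈ A`. -/
theorem pg_coord_mem
    (hc : ∀ c : K, c ∈ A → algebraMap K F c ∈ Va)
    (hr : ∀ (c : A) (h : algebraMap K F (c : K) ∈ Va),
      ra ⟨_, h⟩ = algebraMap (ResidueField A) Fa (residue A c))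
    {n : ℕ} (e : Fin n → Va)
    (hli : LinearIndependent (ResidueField A) (fun i => ra (e i)))
    (c : Fin n → K) (h : ∑ i, algebraMap K F (c i) * (e i : F) ∈ Va) : ∀ i, c i ∈ A := by
  classical
  by_contra hcon
  push Not at hcon
  obtain ⟨i1, hi1⟩ := hcon
  have hne : ∃ i, c i ≠ 0 := ⟨i1, fun h0 => hi1 (h0 ▸ A.zero_mem)⟩
  obtain ⟨i₀, h0, hdom⟩ := pg_exists_dominant A c hne
  have hi₀ : c i₀ ∉ A := by
    intro hA
    apply hi1
    have : c i1 = c i1 * (c i₀)⁻¹ * c i₀ := by
      rw [mul_assoc, inv_mul_cancel₀ h0, mul_one]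
    rw [this]
    exact A.mul_mem _ _ (hdom i1) hA
  have hinv : (c i₀)⁻¹ ∈ A.nonunits := pg_inv_mem_nonunits A hi₀
  have hinvA : (c i₀)⁻¹ ∈ A := A.nonunits_le hinv
  -- the rescaled combination
  set b : Fin n → A := fun i => ⟨c i * (c i₀)⁻¹, hdom i⟩ with hb
  have hx' : ∑ i, algebraMap K F (b i : K) * (e i : F) =
      algebraMap K F (c i₀)⁻¹ * ∑ i, algebraMap K F (c i) * (e i : F) := by
    rw [Finset.mul_sum]
    refine Finset.sum_congr rfl fun i _ => ?_
    rw [hb]
    simp only [map_mul]
    ring
  have hmem : ∑ i, algebraMap K F (b i : K) * (e i : F) ∈ Va := by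
    rw [hx']; exact Va.mul_mem (hc _ hinvA) h
  have hred := pg_red_sum hc hr e b hmem
  have hzero : ra ⟨_, hmem⟩ = 0 := by
    have e1 : (⟨_, hmem⟩ : Va) = ⟨algebraMap K F (c i₀)⁻¹, hc _ hinvA⟩ * ⟨_, h⟩ :=
      Subtype.ext hx'
    rw [e1, map_mul, hr ⟨(c i₀)⁻¹, hinvA⟩, pg_residue_eq_zero A hinv hinvA, map_zero, zero_mul]
  rw [hzero] at hred
  have := (Fintype.linearIndependent_iff.1 hli) (fun i => residue A (b i)) hred.symm i₀
  have hb1 : b i₀ = 1 := by
    apply Subtype.ext
    simp only [hb]
    rw [mul_inv_cancel₀ h0]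
    rfl
  rw [hb1, map_one] at this
  exact one_ne_zero this

/-- a family of `Va` with `k`-linearly independent reductions is `K`-linearly independent -/
theorem pg_linearIndependent
    (hc : ∀ c : K, c ∈ A → algebraMap K F c ∈ Va)
    (hr : ∀ (c : A) (h : algebraMap K F (c : K) ∈ Va),
      ra ⟨_, h⟩ = algebraMap (ResidueField A) Fa (residue A c))
    {n : ℕ} (e : Fin n → Va)
    (hli : LinearIndependent (ResidueField A) (fun i => ra (e i))) :
    LinearIndependent K (fun i => (e i : F)) := by
  classical
  rw [Fintype.linearIndependent_iff]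
  intro c hsum
  by_contra hcon
  push Not at hcon
  obtain ⟨i1, hi1⟩ := hcon
  obtain ⟨i₀, h0, hdom⟩ := pg_exists_dominant A c ⟨i1, hi1⟩
  set b : Fin n → A := fun i => ⟨c i * (c i₀)⁻¹, hdom i⟩ with hb
  have hx' : ∑ i, algebraMap K F (b i : K) * (e i : F) = 0 := by
    have : ∑ i, algebraMap K F (b i : K) * (e i : F) =
        algebraMap K F (c i₀)⁻¹ * ∑ i, c i • (e i : F) := by
      rw [Finset.mul_sum]
      refine Finset.sum_congr rfl fun i _ => ?_
      rw [hb, Algebra.smul_def]
      simp only [map_mul]
      ring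
    rw [this, hsum, mul_zero]
  have hmem : ∑ i, algebraMap K F (b i : K) * (e i : F) ∈ Va := by
    rw [hx']; exact Va.zero_mem
  have hred := pg_red_sum hc hr e b hmem
  have hzero : ra ⟨_, hmem⟩ = 0 := by
    have e1 : (⟨_, hmem⟩ : Va) = 0 := Subtype.ext hx'
    rw [e1, map_zero]
  rw [hzero] at hred
  have := (Fintype.linearIndependent_iff.1 hli) (fun i => residue A (b i)) hred.symm i₀
  have hb1 : b i₀ = 1 := by
    apply Subtype.ext
    simp only [hb]
    rw [mul_inv_cancel₀ h0]
    rfl
  rw [hb1, map_one] at this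
  exact one_ne_zero this

end Single

section Pair

variable {K : Type*} [Field K] {A : ValuationSubring K}
  {F : Type*} [Field F] [Algebra K F]
  {Fa : Type*} [Field Fa] [Algebra (ResidueField A) Fa]
  {Fb : Type*} [Field Fb] [Algebra (ResidueField A) Fb]
  {Va Vb : Subring F} {ra : Va →+* Fa} {rb : Vb →+* Fb}

/-- the inductive form of `pairG3_abs` -/
theorem pairG3_aux
    (hca : ∀ c : K, c ∈ A → algebraMap K F c ∈ Va)
    (hra : ∀ (c : A) (h : algebraMap K F (c : K) ∈ Va),
      ra ⟨_, h⟩ = algebraMap (ResidueField A) Fa (residue A c))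
    (hcb : ∀ c : K, c ∈ A → algebraMap K F c ∈ Vb)
    (hrb : ∀ (c : A) (h : algebraMap K F (c : K) ∈ Vb),
      rb ⟨_, h⟩ = algebraMap (ResidueField A) Fb (residue A c))
    (G3a : ∀ V : Submodule K F, FiniteDimensional K V →
      ∃ u : Fin (Module.finrank K V) → Va, (∀ i, (u i : F) ∈ V) ∧
        LinearIndependent (ResidueField A) (fun i => ra (u i)))
    (G3b : ∀ V : Submodule K F, FiniteDimensional K V →
      ∃ u : Fin (Module.finrank K V) → Vb, (∀ i, (u i : F) ∈ V) ∧
        LinearIndependent (ResidueField A) (fun i => rb (u i))) :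
    ∀ (n : ℕ) (V : Submodule K F), FiniteDimensional K V → Module.finrank K V = n →
      ∃ (ua : Fin n → Va) (ub : Fin n → Vb),
        (∀ i, (ua i : F) = (ub i : F)) ∧ (∀ i, (ua i : F) ∈ V) ∧
        LinearIndependent (ResidueField A) (fun i => ((ra (ua i), rb (ub i)) : Fa × Fb)) := by
  classical
  intro n
  induction n with
  | zero =>
    intro V _ _
    exact ⟨Fin.elim0, Fin.elim0, fun i => i.elim0, fun i => i.elim0, linearIndependent_empty_type⟩
  | succ n ih =>
    intro V hV hn
    -- the two orthonormal bases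
    obtain ⟨u, hu, hliu⟩ := G3a V hV
    obtain ⟨w, hw, hliw⟩ := G3b V hV
    set e : Fin (n + 1) → Va := fun i => u (Fin.cast hn.symm i) with he_def
    set f : Fin (n + 1) → Vb := fun i => w (Fin.cast hn.symm i) with hf_def
    have he : ∀ i, (e i : F) ∈ V := fun i => hu _
    have hf : ∀ i, (f i : F) ∈ V := fun i => hw _
    have hlie : LinearIndependent (ResidueField A) (fun i => ra (e i)) :=
      hliu.comp (fun i => Fin.cast hn.symm i) (Fin.cast_injective _)
    have hlif : LinearIndependent (ResidueField A) (fun i => rb (f i)) :=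
      hliw.comp (fun i => Fin.cast hn.symm i) (Fin.cast_injective _)
    have hKe : LinearIndependent K (fun i => (e i : F)) := pg_linearIndependent hca hra e hlie
    -- `e` spans `V`
    have hspan : Submodule.span K (Set.range fun i => (e i : F)) = V := by
      apply Submodule.eq_of_le_of_finrank_eq
      · rw [Submodule.span_le]
        rintro _ ⟨i, rfl⟩
        exact he i
      · rw [finrank_span_eq_card hKe, Fintype.card_fin, hn]
    -- the matrix of `f` in the basis `e`
    have hT : ∀ j, ∃ t : Fin (n + 1) → K, ∑ i, t i • (e i : F) = (f j : F) := by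
      intro j
      have h1 : (f j : F) ∈ Submodule.span K (Set.range fun i => (e i : F)) := by
        rw [hspan]; exact hf j
      exact (Submodule.mem_span_range_iff_exists_fun K).1 h1
    choose T hT using hT
    -- `f 0 ≠ 0`
    have hf0 : (f 0 : F) ≠ 0 := by
      intro h0
      have h1 : f 0 = 0 := Subtype.ext h0
      exact hlif.ne_zero 0 (by rw [h1, map_zero])
    have hTne : ∃ q : Fin (n + 1) × Fin (n + 1), T q.1 q.2 ≠ 0 := by
      by_contra hcon
      push Not at hcon
      apply hf0
      rw [← hT 0]
      refine Finset.sum_eq_zero fun i _ => ?_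
      rw [hcon (0, i), zero_smul]
    obtain ⟨⟨j₀, i₀⟩, h0, hdom⟩ := pg_exists_dominant A
      (fun q : Fin (n + 1) × Fin (n + 1) => T q.1 q.2) hTne
    simp only at h0 hdom
    by_cases hA : T j₀ i₀ ∈ A
    · -- all entries are integral: `f` is pair-orthonormal
      have hTA : ∀ j i, T j i ∈ A := by
        intro j i
        have : T j i = T j i * (T j₀ i₀)⁻¹ * T j₀ i₀ := by
          rw [mul_assoc, inv_mul_cancel₀ h0, mul_one]
        rw [this]
        exact A.mul_mem _ _ (hdom (j, i)) hA
      have hfa : ∀ j, (f j : F) ∈ Va := by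
        intro j
        rw [← hT j]
        have := pg_sum_mem hca e (T j) (hTA j)
        simpa only [Algebra.smul_def] using this
      refine ⟨fun j => ⟨(f j : F), hfa j⟩, f, fun _ => rfl, hf, ?_⟩
      refine LinearIndependent.of_comp (LinearMap.snd (ResidueField A) Fa Fb) ?_
      exact hlif
    · -- the pivot
      have hinv : (T j₀ i₀)⁻¹ ∈ A.nonunits := pg_inv_mem_nonunits A hA
      have hinvA : (T j₀ i₀)⁻¹ ∈ A := A.nonunits_le hinv
      set g : F := algebraMap K F (T j₀ i₀)⁻¹ * (f j₀ : F) with hg
      have hgb : g ∈ Vb := Vb.mul_mem (hcb _ hinvA) (f j₀).2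
      have hrbg : rb ⟨g, hgb⟩ = 0 := by
        have e1 : (⟨g, hgb⟩ : Vb) = ⟨algebraMap K F (T j₀ i₀)⁻¹, hcb _ hinvA⟩ * f j₀ :=
          Subtype.ext rfl
        rw [e1, map_mul, hrb ⟨(T j₀ i₀)⁻¹, hinvA⟩, pg_residue_eq_zero A hinv hinvA, map_zero,
          zero_mul]
      set b : Fin (n + 1) → A := fun i => ⟨T j₀ i * (T j₀ i₀)⁻¹, hdom (j₀, i)⟩ with hb
      have hgsum : ∑ i, algebraMap K F (b i : K) * (e i : F) = g := by
        rw [hg, ← hT j₀, Finset.mul_sum]
        refine Finset.sum_congr rfl fun i _ => ?_
        rw [hb, Algebra.smul_def]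
        simp only [map_mul]
        ring
      have hga' : ∑ i, algebraMap K F (b i : K) * (e i : F) ∈ Va :=
        pg_sum_mem hca e (fun i => (b i : K)) (fun i => (b i).2)
      have hga : g ∈ Va := hgsum ▸ hga'
      have hrag : ra ⟨g, hga⟩ = ∑ i, residue A (b i) • ra (e i) := by
        rw [← pg_red_sum hca hra e b hga']
        congr 1
        exact Subtype.ext hgsum.symm
      have hb1 : residue A (b i₀) = 1 := by
        have : b i₀ = 1 := by
          apply Subtype.ext
          simp only [hb]
          rw [mul_inv_cancel₀ h0]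
          rfl
        rw [this, map_one]
      have hgV : g ∈ V := by
        rw [hg, ← Algebra.smul_def]
        exact V.smul_mem _ (hf j₀)
      -- the complement
      set e' : Fin n → Va := fun m => e (i₀.succAbove m) with he'
      have hlie' : LinearIndependent (ResidueField A) (fun m => ra (e' m)) :=
        hlie.comp (fun m => i₀.succAbove m) Fin.succAbove_right_injective
      have hKe' : LinearIndependent K (fun m => (e' m : F)) :=
        pg_linearIndependent hca hra e' hlie'
      set V' : Submodule K F := Submodule.span K (Set.range fun m => (e' m : F)) with hV'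
      have hV'le : V' ≤ V := by
        rw [hV', Submodule.span_le]
        rintro _ ⟨m, rfl⟩
        exact he _
      have hV'fin : FiniteDimensional K V' := by
        rw [hV']
        exact FiniteDimensional.span_of_finite K (Set.finite_range _)
      have hV'rank : Module.finrank K V' = n := by
        rw [hV', finrank_span_eq_card hKe', Fintype.card_fin]
      obtain ⟨ua', ub', heq', hmem', hli'⟩ := ih V' hV'fin hV'rank
      -- coordinates of the new elements
      have hcoord : ∀ m, ∃ c : Fin n → A,
          ra (ua' m) = ∑ m', residue A (c m') • ra (e' m') := by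
        intro m
        obtain ⟨c, hc⟩ := (Submodule.mem_span_range_iff_exists_fun K).1 (hmem' m)
        have hc' : ∑ m', algebraMap K F (c m') * (e' m' : F) = (ua' m : F) := by
          rw [← hc]
          refine Finset.sum_congr rfl fun i _ => ?_
          rw [Algebra.smul_def]
        have hmemVa : ∑ m', algebraMap K F (c m') * (e' m' : F) ∈ Va := hc' ▸ (ua' m).2
        have hcA := pg_coord_mem hca hra e' hlie' c hmemVa
        refine ⟨fun m' => ⟨c m', hcA m'⟩, ?_⟩
        rw [← pg_red_sum hca hra e' (fun m' => ⟨c m', hcA m'⟩) hmemVa]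
        congr 1
        exact Subtype.ext hc'.symm
      choose c hc using hcoord
      refine ⟨Fin.cons ⟨g, hga⟩ ua', Fin.cons ⟨g, hgb⟩ ub', ?_, ?_, ?_⟩
      · intro i
        refine Fin.cases ?_ (fun m => ?_) i
        · rfl
        · simp only [Fin.cons_succ]
          exact heq' m
      · intro i
        refine Fin.cases ?_ (fun m => ?_) i
        · exact hgV
        · simp only [Fin.cons_succ]
          exact hV'le (hmem' m)
      · rw [Fintype.linearIndependent_iff]
        intro κ hκ
        -- the two components of the relation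
        have h1 : ∑ i, κ i • ra ((Fin.cons ⟨g, hga⟩ ua' : Fin (n + 1) → Va) i) = 0 := by
          have := congrArg Prod.fst hκ
          simpa only [Prod.fst_sum, Prod.smul_fst, Prod.fst_zero] using this
        have h2 : ∑ i, κ i • rb ((Fin.cons ⟨g, hgb⟩ ub' : Fin (n + 1) → Vb) i) = 0 := by
          have := congrArg Prod.snd hκ
          simpa only [Prod.snd_sum, Prod.smul_snd, Prod.snd_zero] using this
        -- `κ 0 = 0`
        have hκ0 : κ 0 = 0 := by
          rw [Fin.sum_univ_succ] at h1
          simp only [Fin.cons_zero, Fin.cons_succ] at h1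
          rw [hrag, Fin.sum_univ_succAbove _ i₀, hb1, one_smul] at h1
          simp only [hc] at h1
          -- collect the coefficients
          set μ : Fin n → ResidueField A := fun m' =>
            κ 0 * residue A (b (i₀.succAbove m')) +
              ∑ m, κ m.succ * residue A (c m m') with hμ
          have h3 : κ 0 • ra (e i₀) + ∑ m', μ m' • ra (e' m') = 0 := by
            rw [← h1]
            simp only [hμ, add_smul, Finset.sum_add_distrib, smul_add, Finset.smul_sum,
              Finset.sum_smul, mul_smul]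
            rw [add_assoc]
            congr 1
            congr 1
            rw [Finset.sum_comm]
          have h4 : ∑ i, (i₀.insertNth (κ 0) μ : Fin (n + 1) → ResidueField A) i • ra (e i) =
              0 := by
            rw [Fin.sum_univ_succAbove _ i₀]
            simp only [Fin.insertNth_apply_same, Fin.insertNth_apply_succAbove]
            exact h3
          have := (Fintype.linearIndependent_iff.1 hlie) _ h4 i₀
          simpa only [Fin.insertNth_apply_same] using this
        -- the others
        have hrest : ∑ m, κ m.succ • ((ra (ua' m), rb (ub' m)) : Fa × Fb) = 0 := by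
          have := hκ
          rw [Fin.sum_univ_succ, hκ0, zero_smul, zero_add] at this
          simpa only [Fin.cons_succ] using this
        have hrest' := (Fintype.linearIndependent_iff.1 hli') (fun m => κ m.succ) hrest
        intro i
        refine Fin.cases hκ0 (fun m => hrest' m) i

/-- **PAIR (G3) from the two single (G3).** -/
theorem pairG3_abs
    (hca : ∀ c : K, c ∈ A → algebraMap K F c ∈ Va)
    (hra : ∀ (c : A) (h : algebraMap K F (c : K) ∈ Va),
      ra ⟨_, h⟩ = algebraMap (ResidueField A) Fa (residue A c))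
    (hcb : ∀ c : K, c ∈ A → algebraMap K F c ∈ Vb)
    (hrb : ∀ (c : A) (h : algebraMap K F (c : K) ∈ Vb),
      rb ⟨_, h⟩ = algebraMap (ResidueField A) Fb (residue A c))
    (G3a : ∀ V : Submodule K F, FiniteDimensional K V →
      ∃ u : Fin (Module.finrank K V) → Va, (∀ i, (u i : F) ∈ V) ∧
        LinearIndependent (ResidueField A) (fun i => ra (u i)))
    (G3b : ∀ V : Submodule K F, FiniteDimensional K V →
      ∃ u : Fin (Module.finrank K V) → Vb, (∀ i, (u i : F) ∈ V) ∧
        LinearIndependent (ResidueField A) (fun i => rb (u i)))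
    (V : Submodule K F) (hV : FiniteDimensional K V) :
    ∃ (ua : Fin (Module.finrank K V) → Va) (ub : Fin (Module.finrank K V) → Vb),
      (∀ i, (ua i : F) = (ub i : F)) ∧ (∀ i, (ua i : F) ∈ V) ∧
      LinearIndependent (ResidueField A) (fun i => ((ra (ua i), rb (ub i)) : Fa × Fb)) :=
  pairG3_aux hca hra hcb hrb G3a G3b _ V hV rfl

end Pair

end Fermat.Agent.H23.ORD
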