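import Fermat.Agent.H18.ORD.NodalSemiDefs

/-!
# P-ORD, block B1 (helper23): the node count, half `g_∞ + g_0 + s ≤ g + 1`

Abstract, on helper18's interface `NodalRvHyp` : **semicontinuity for the pair reduction**.

Input `hpair` : the PAIR lattice statement (G3) - every finite-dimensional `V ⊆ F` has `dim V`
elements of `V ∩ V_∞ ∩ V_0` with `k`-linearly independent pairs of reductions (for the instance
`nmG` : `Fermat.Agent.H23.ORD.nmPairG3`, from `Fermat.Agent.H23.ORD.pairG3_abs`).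

Proof: `V = L(n P_∞ + n P_0)`, `P_∞`, `P_0` two places with smooth specialisations `Q_∞ ∈ C_∞`,
`Q_0 ∈ C_0`.  By Riemann `dim V ≥ 2 n + 1 - g`.  The pairs of reductions lie in the glued space
of `L(n Q_∞) × L(n Q_0)` (CONTAIN, helper18), whose dimension is `2 n + 2 - g_∞ - g_0 - s` for
`n` large (RR-GLUE, helper18).
-/

set_option autoImplicit false
set_option linter.unusedSectionVars false
set_option linter.style.haveILetI false
set_option maxHeartbeats 1600000

noncomputable section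

open AlgebraicCurve ModularCurve

namespace Fermat.Agent.H23.ORD

open Fermat.Agent.H72.FF Fermat.Agent.H18.ORD Fermat.Agent.H27.ESD Fermat.Agent.H69.ORD

variable {N p : ℕ} {A : ValuationSubring Qb} {Foo F0 : Type} [Field Foo] [Field F0]
  [Algebra (kRes A) Foo] [Algebra (kRes A) F0] {ι : Type} {G : NodalData N A Foo F0 ι}

/-- the gluing map is onto for `Doo = n Q∞`, `n` large, uniformly in `D0` -/
theorem nc_glueMap_surjective [Finite ι] {goo g0 : ℕ}
    (pkOo : RiemannPackage (kRes A) Foo goo)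
    (pk0 : RiemannPackage (kRes A) F0 g0) (hinj : Function.Injective G.nOo)
    (Qoo : Place (kRes A) Foo) (hQoo : Qoo ∉ Set.range G.nOo) :
    ∃ n₂ : ℕ, ∀ n : ℕ, n₂ ≤ n →
      ∀ (D0 : Divisor (kRes A) F0) (hD0 : ∀ ν, D0 (G.n0 ν) ≤ 0)
        (hDoo : ∀ ν, (Finsupp.single Qoo (n : ℤ) : Divisor (kRes A) Foo) (G.nOo ν) ≤ 0),
        Function.Surjective
          (glueMap G pkOo.deg_one pk0.deg_one (Finsupp.single Qoo (n : ℤ)) D0 hDoo hD0) := by
  classical
  haveI := Fintype.ofFinite ι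
  have hS : Qoo ∉ Finset.univ.image G.nOo := by
    intro h
    obtain ⟨ν, -, hν⟩ := Finset.mem_image.mp h
    exact hQoo ⟨ν, hν⟩
  obtain ⟨n₂, hn₂⟩ := sys_exists_interp pkOo Qoo (Finset.univ.image G.nOo) hS
  refine ⟨n₂, fun n hn D0 hD0 hDoo t => ?_⟩
  obtain ⟨y, hy, hyS⟩ := hn₂ n hn
    (fun v => if h : ∃ ν, G.nOo ν = v then t (Classical.choose h) else 0)
  refine ⟨(⟨y, hy⟩, 0), ?_⟩
  funext ν
  rw [glueMap_apply]
  have h1 := hyS (G.nOo ν) (Finset.mem_image.mpr ⟨ν, Finset.mem_univ _, rfl⟩)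
  have hex : ∃ ν', G.nOo ν' = G.nOo ν := ⟨ν, rfl⟩
  rw [dif_pos hex] at h1
  have h2 : Classical.choose hex = ν := hinj (Classical.choose_spec hex)
  rw [h2] at h1
  show evalAt _ _ _ _ (⟨y, hy⟩ : ↥(riemannRochSpace _)) - evalAt _ _ _ _ 0 = t ν
  rw [map_zero, sub_zero]
  exact evalAt_eq _ _ _ _ _ h1

/-- **The node count, semicontinuity half** : `g_∞ + g_0 + s ≤ g + 1`. -/
theorem nodal_genus_ge (H : NodalRvHyp p G) (hp : p.Prime) (hA : A.LiesOverPrime p) [Finite ι]
    {g goo g0 : ℕ} (pkL : RiemannPackage Qb (FLb N) g)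
    (pkOo : RiemannPackage (kRes A) Foo goo) (pk0 : RiemannPackage (kRes A) F0 g0)
    {Poo P0 : Place Qb (FLb N)} {Qoo : Place (kRes A) Foo} {Q0 : Place (kRes A) F0}
    (hPoo : G.r Poo = NPt.oo Qoo) (hP0 : G.r P0 = NPt.zero Q0)
    (hpair : ∀ V : Submodule Qb (FLb N), FiniteDimensional Qb V →
      ∃ (ua : Fin (Module.finrank Qb V) → G.Voo) (ub : Fin (Module.finrank Qb V) → G.V0),
        (∀ i, (ua i : FLb N) = (ub i : FLb N)) ∧ (∀ i, (ua i : FLb N) ∈ V) ∧
        LinearIndependent (kRes A) (fun i => ((G.redOo (ua i), G.red0 (ub i)) : Foo × F0))) :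
    goo + g0 + Nat.card ι ≤ g + 1 := by
  classical
  have hQoo : Qoo ∉ Set.range G.nOo := H.r_oo Poo Qoo hPoo
  have hQ0 : Q0 ∉ Set.range G.n0 := H.r_zero P0 Q0 hP0
  obtain ⟨n₂, hn₂⟩ := nc_glueMap_surjective (G := G) pkOo pk0 H.nOo_inj Qoo hQoo
  obtain ⟨coo, hcoo⟩ := pkOo.eq_of_large
  obtain ⟨c0, hc0⟩ := pk0.eq_of_large
  -- a large `n`
  set n : ℕ := max n₂ (max coo.toNat c0.toNat) with hn
  have hn1 : n₂ ≤ n := le_max_left _ _
  have hn2 : coo ≤ (n : ℤ) := by
    have h1 : coo.toNat ≤ n := le_trans (le_max_left _ _) (le_max_right _ _)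
    have h2 := Int.self_le_toNat coo
    omega
  have hn3 : c0 ≤ (n : ℤ) := by
    have h1 : c0.toNat ≤ n := le_trans (le_max_right _ _) (le_max_right _ _)
    have h2 := Int.self_le_toNat c0
    omega
  -- the divisors on the components
  have hDoo : ∀ ν, (Finsupp.single Qoo (n : ℤ) : Divisor (kRes A) Foo) (G.nOo ν) ≤ 0 := by
    intro ν
    rw [Finsupp.single_apply, if_neg (fun h => hQoo ⟨ν, h.symm⟩)]
  have hD0 : ∀ ν, (Finsupp.single Q0 (n : ℤ) : Divisor (kRes A) F0) (G.n0 ν) ≤ 0 := by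
    intro ν
    rw [Finsupp.single_apply, if_neg (fun h => hQ0 ⟨ν, h.symm⟩)]
  have hdim := gluedSpace_finrank_le G pkOo pk0 (Finsupp.single Qoo (n : ℤ))
    (Finsupp.single Q0 (n : ℤ)) hDoo hD0 (hn₂ n hn1 _ hD0 hDoo)
  have hloo := hcoo (Finsupp.single Qoo (n : ℤ))
    (by rw [Divisor.degree_single, pkOo.deg_one]; simpa using hn2)
  have hl0 := hc0 (Finsupp.single Q0 (n : ℤ))
    (by rw [Divisor.degree_single, pk0.deg_one]; simpa using hn3)
  rw [Divisor.degree_single, pkOo.deg_one] at hloo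
  rw [Divisor.degree_single, pk0.deg_one] at hl0
  -- the Riemann-Roch space on the generic fibre
  haveI := pkL.finite (twoPt Poo P0 n)
  have hR := pkL.riemann (twoPt Poo P0 n)
  have hdeg : Divisor.degree (twoPt Poo P0 n) = 2 * (n : ℤ) := by
    rw [twoPt, map_add, Divisor.degree_single, Divisor.degree_single, pkL.deg_one, pkL.deg_one]
    ring
  rw [hdeg] at hR
  obtain ⟨ua, ub, heq, hmem, hli⟩ := hpair (riemannRochSpace (twoPt Poo P0 n)) inferInstance
  -- the pairs of reductions are glued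
  have hglued : ∀ i, ((G.redOo (ua i), G.red0 (ub i)) : Foo × F0) ∈
      gluedSpace G (Finsupp.single Qoo (n : ℤ)) (Finsupp.single Q0 (n : ℤ)) := by
    intro i
    have hu0 : ((ua i : G.Voo) : FLb N) ∈ G.V0 := by rw [heq i]; exact (ub i).2
    have h1 := H.contain hp hA pkL.principal (twoPt_node G hPoo hP0 n) (ua i).2 hu0 (hmem i)
    rw [pushOo_two_points G hPoo hP0, pushZero_two_points G hPoo hP0] at h1
    have e2 : (⟨((ua i : G.Voo) : FLb N), hu0⟩ : G.V0) = ub i := Subtype.ext (heq i)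
    rw [e2] at h1
    exact h1
  -- count
  haveI hfin : Module.Finite (kRes A)
      (gluedSpace G (Finsupp.single Qoo (n : ℤ)) (Finsupp.single Q0 (n : ℤ))) := by
    haveI := pkOo.finite (Finsupp.single Qoo (n : ℤ))
    haveI := pk0.finite (Finsupp.single Q0 (n : ℤ))
    rw [gluedSpace_eq_map G pkOo.deg_one pk0.deg_one _ _ hDoo hD0]
    infer_instance
  have hli' : LinearIndependent (kRes A) (fun i =>
      (⟨_, hglued i⟩ : gluedSpace G (Finsupp.single Qoo (n : ℤ)) (Finsupp.single Q0 (n : ℤ)))) := by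
    refine LinearIndependent.of_comp (Submodule.subtype _) ?_
    exact hli
  have hcard := hli'.fintype_card_le_finrank
  rw [Fintype.card_fin] at hcard
  have hcard' : (Module.finrank Qb (riemannRochSpace (twoPt Poo P0 n)) : ℤ) ≤
      (Module.finrank (kRes A)
        (gluedSpace G (Finsupp.single Qoo (n : ℤ)) (Finsupp.single Q0 (n : ℤ))) : ℤ) := by
    exact_mod_cast hcard
  have : ((goo : ℤ) + g0 + Nat.card ι) ≤ (g : ℤ) + 1 := by
    rw [hdim, hloo, hl0] at hcard'
    simp only [Nat.cast_one, mul_one] at hcard'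
    omega
  exact_mod_cast this

end Fermat.Agent.H23.ORD
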