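import Mathlib

/-!
# P-ORD, block B1-LATT (helper23): the pair lattice property (M5) from the single-valuation (G3)

Abstract form (Mathlib only).  `K` a field with a valuation subring `A` (residue field `k`), `F` a
`K`-algebra which is a field, `V∞`, `V₀` two subrings of `F` with reductions
`red∞ : V∞ →+* F∞`, `red₀ : V₀ →+* F₀`.

If `f : F` has a normalisation `g = α f + β ∈ V∞`, `α ≠ 0`, whose reduction at `V∞` is not a
constant (this is the lattice property (G3) of the single Gauss valuation, applied to the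
plane `⟨1, f⟩`), then `f` has a normalisation `α' f + β'` in `V∞ ∩ V₀` whose pair of reductions
is not a constant pair `(κ, κ)`:

* if `g ∈ V₀` take `g` itself (its first reduction is not constant);
* otherwise `g = c' w` with `w` a unit of `V₀` and `c' ∉ A`; then `c = c'⁻¹ ∈ 𝔪_A` and
  `c g = w` has the pair of reductions `(0, red₀ w)`, `red₀ w ≠ 0`.

This is exactly the field `lattice` of `Fermat.Agent.H18.ORD.NodalRvHyp`.
-/

set_option autoImplicit false

namespace Fermat.Agent.H23.ORD

open IsLocalRing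

/-- **(M5) from (G3) at one valuation.** -/
theorem lattice_of_single {K F Foo F0 : Type*} [Field K] [Field F] [Algebra K F]
    [Field Foo] [Field F0] (A : ValuationSubring K)
    [Algebra (ResidueField A) Foo] [Algebra (ResidueField A) F0]
    (Voo V0 : Subring F) (redOo : Voo →+* Foo) (red0 : V0 →+* F0)
    (const_oo : ∀ c : K, algebraMap K F c ∈ Voo ↔ c ∈ A)
    (const_zero : ∀ c : K, algebraMap K F c ∈ V0 ↔ c ∈ A)
    (red_const_oo : ∀ (c : A) (h : algebraMap K F (c : K) ∈ Voo),
      redOo ⟨_, h⟩ = algebraMap (ResidueField A) Foo (residue A c))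
    (norm_zero : ∀ φ : F, φ ≠ 0 → ∃ (c : K) (u : V0), c ≠ 0 ∧ red0 u ≠ 0 ∧
      φ = algebraMap K F c * (u : F))
    (f : F)
    (hG3 : ∃ (α β : K) (h : algebraMap K F α * f + algebraMap K F β ∈ Voo), α ≠ 0 ∧
      ∀ κ : ResidueField A, redOo ⟨_, h⟩ ≠ algebraMap (ResidueField A) Foo κ) :
    ∃ (α β : K) (h : algebraMap K F α * f + algebraMap K F β ∈ Voo)
      (h0 : algebraMap K F α * f + algebraMap K F β ∈ V0), α ≠ 0 ∧
      ¬ ∃ κ : ResidueField A, redOo ⟨_, h⟩ = algebraMap (ResidueField A) Foo κ ∧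
        red0 ⟨_, h0⟩ = algebraMap (ResidueField A) F0 κ := by
  classical
  obtain ⟨α, β, h, hα, hnc⟩ := hG3
  set g : F := algebraMap K F α * f + algebraMap K F β with hg
  by_cases hg0 : g ∈ V0
  · exact ⟨α, β, h, hg0, hα, fun ⟨κ, h1, _⟩ => hnc κ h1⟩
  · -- `g ≠ 0`
    have hgne : g ≠ 0 := fun h0 => hg0 (by rw [h0]; exact V0.zero_mem)
    obtain ⟨c', w, hc', hw, hgw⟩ := norm_zero g hgne
    -- `c' ∉ A`
    have hc'A : c' ∉ A := by
      intro hc
      apply hg0
      rw [hgw]
      exact V0.mul_mem ((const_zero c').2 hc) w.2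
    -- `c = c'⁻¹ ∈ 𝔪_A`
    have hcA : c'⁻¹ ∈ A := by
      rcases A.mem_or_inv_mem c' with h1 | h1
      · exact absurd h1 hc'A
      · exact h1
    have hres : residue A ⟨c'⁻¹, hcA⟩ = 0 := by
      rw [IsLocalRing.residue_eq_zero_iff]
      change (⟨c'⁻¹, hcA⟩ : A) ∈ IsLocalRing.maximalIdeal A
      rw [IsLocalRing.mem_maximalIdeal, mem_nonunits_iff]
      intro hu
      apply hc'A
      obtain ⟨b, hb⟩ := isUnit_iff_exists_inv.1 hu
      have h3 : c'⁻¹ * (b : K) = 1 := by
        have := congrArg (fun x : A => (x : K)) hb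
        simpa using this
      have h4 : (b : K) = c' := by
        have h5 : c' * (c'⁻¹ * (b : K)) = c' * 1 := by rw [h3]
        rw [← mul_assoc, mul_inv_cancel₀ hc', one_mul, mul_one] at h5
        exact h5
      rw [← h4]
      exact b.2
    -- the new normalisation `c g = w`
    have hmul : algebraMap K F (c'⁻¹ * α) * f + algebraMap K F (c'⁻¹ * β) =
        algebraMap K F c'⁻¹ * g := by
      rw [hg, map_mul, map_mul]; ring
    have hcw : algebraMap K F c'⁻¹ * g = (w : F) := by
      rw [hgw, ← mul_assoc, ← map_mul, inv_mul_cancel₀ hc', map_one, one_mul]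
    have hcoo : algebraMap K F c'⁻¹ ∈ Voo := (const_oo _).2 hcA
    have hin : algebraMap K F (c'⁻¹ * α) * f + algebraMap K F (c'⁻¹ * β) ∈ Voo := by
      rw [hmul]; exact Voo.mul_mem hcoo h
    have hin0 : algebraMap K F (c'⁻¹ * α) * f + algebraMap K F (c'⁻¹ * β) ∈ V0 := by
      rw [hmul, hcw]; exact w.2
    refine ⟨c'⁻¹ * α, c'⁻¹ * β, hin, hin0, mul_ne_zero (inv_ne_zero hc') hα, ?_⟩
    rintro ⟨κ, h1, h2⟩
    -- the reduction at `V∞` vanishes
    have e1 : (⟨_, hin⟩ : Voo) = ⟨algebraMap K F c'⁻¹, hcoo⟩ * ⟨g, h⟩ := by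
      apply Subtype.ext
      simp only [Subring.coe_mul]
      exact hmul
    have hz : redOo ⟨_, hin⟩ = 0 := by
      rw [e1, map_mul, red_const_oo ⟨c'⁻¹, hcA⟩ hcoo, hres, map_zero, zero_mul]
    have hκ : κ = 0 := by
      rw [hz] at h1
      have := h1.symm
      rwa [map_eq_zero] at this
    -- the reduction at `V₀` does not
    have e2 : (⟨_, hin0⟩ : V0) = w := by
      apply Subtype.ext
      simp only
      rw [hmul, hcw]
    rw [e2, hκ, map_zero] at h2
    exact hw h2

/-- **(G3) for the plane `⟨1, f⟩` gives the single-valuation normalisation.**  If the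
`2`-dimensional space `⟨1, f⟩` (`f` not a constant) contains two elements of `V∞` with
`k`-linearly independent reductions, then some `α f + β ∈ V∞`, `α ≠ 0`, has a non-constant
reduction. -/
theorem single_of_plane {K F Foo : Type*} [Field K] [Field F] [Algebra K F]
    [Field Foo] (A : ValuationSubring K) [Algebra (ResidueField A) Foo]
    (Voo : Subring F) (redOo : Voo →+* Foo)
    (const_oo : ∀ c : K, algebraMap K F c ∈ Voo ↔ c ∈ A)
    (red_const_oo : ∀ (c : A) (h : algebraMap K F (c : K) ∈ Voo),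
      redOo ⟨_, h⟩ = algebraMap (ResidueField A) Foo (residue A c))
    (f : F)
    (u : Fin 2 → Voo)
    (hu : ∀ i, ∃ α β : K, (u i : F) = algebraMap K F α * f + algebraMap K F β)
    (hli : LinearIndependent (ResidueField A) (fun i => redOo (u i))) :
    ∃ (α β : K) (h : algebraMap K F α * f + algebraMap K F β ∈ Voo), α ≠ 0 ∧
      ∀ κ : ResidueField A, redOo ⟨_, h⟩ ≠ algebraMap (ResidueField A) Foo κ := by
  classical
  -- one of the two reductions is not a constant
  have hex : ∃ i, ∀ κ : ResidueField A, redOo (u i) ≠ algebraMap (ResidueField A) Foo κ := by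
    by_contra hcon
    push Not at hcon
    obtain ⟨κ0, h0⟩ := hcon 0
    obtain ⟨κ1, h1⟩ := hcon 1
    have hne0 : redOo (u 0) ≠ 0 := hli.ne_zero 0
    have hκ0 : κ0 ≠ 0 := by
      rintro rfl
      rw [map_zero] at h0
      exact hne0 h0
    have hrel : κ1 • redOo (u 0) + (-κ0) • redOo (u 1) = 0 := by
      rw [h0, h1, Algebra.smul_def, Algebra.smul_def, map_neg]
      ring
    have := (LinearIndependent.pair_iff.1
      (by
        have h2 := hli
        have e : (fun i => redOo (u i)) = ![redOo (u 0), redOo (u 1)] := by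
          funext i; fin_cases i <;> rfl
        rw [e] at h2
        exact h2)) κ1 (-κ0) hrel
    exact hκ0 (neg_eq_zero.1 this.2)
  obtain ⟨i, hi⟩ := hex
  obtain ⟨α, β, hαβ⟩ := hu i
  have hmem : algebraMap K F α * f + algebraMap K F β ∈ Voo := hαβ ▸ (u i).2
  have hui : (⟨_, hmem⟩ : Voo) = u i := Subtype.ext hαβ.symm
  refine ⟨α, β, hmem, ?_, fun κ => by rw [hui]; exact hi κ⟩
  rintro rfl
  -- `u i = β` is a constant
  have hβ : algebraMap K F β ∈ Voo := by
    have := hmem
    rwa [map_zero, zero_mul, zero_add] at this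
  have hβA : β ∈ A := (const_oo β).1 hβ
  have e : u i = ⟨algebraMap K F β, hβ⟩ := by
    apply Subtype.ext
    rw [hαβ, map_zero, zero_mul, zero_add]
  apply hi (residue A ⟨β, hβA⟩)
  rw [e]
  exact red_const_oo ⟨β, hβA⟩ hβ

end Fermat.Agent.H23.ORD
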