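import Fermat.Agent.H84.ORD.NodalModelRows
import Fermat.Agent.H66.ESD.GaussLattice2
import Fermat.Agent.H14.ORD.PairLatticeG3
import Fermat.Agent.H23.ORD.LatticeOfSingle
import Fermat.Agent.H23.ORD.PairG3Abs

/-!
# P-ORD, block B1, row 1163 B1-LATT (helper23): the lattice statements for `nmG`

For the concrete nodal data of `X₀(M p)` (`Fermat.Agent.H84.ORD.NodalModel`):

* `nmG3Oo`   : the lattice statement (G3) for `V_∞ = gaussOBar (M p) A`, with reductions in
  `F_∞ = NmF (M p) A` (= `Fermat.Agent.H66.gaussLattice`, unconditional);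
* `nmG3Zero` : the same for `V_0 = W⁻¹ V_∞` (transport by the Atkin-Lehner automorphism `W`);
* `nmLattice` : **(M5)** `NmSoftStatement M p → NmLatticeStatement M p`;
* `nmPairG3` : the PAIR lattice statement for every finite-dimensional `V` (input of the
  semicontinuity half `g ≥ p_a` of the node count).
-/

set_option autoImplicit false
set_option linter.unusedSectionVars false
set_option synthInstance.maxHeartbeats 400000

noncomputable section

open AlgebraicCurve ModularCurve

namespace Fermat.Agent.H23.ORD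

open Fermat.Agent.H72.FF Fermat.Agent.H18.ORD Fermat.Agent.H66 Fermat.Agent.H84.ORD

/-- **(G3) at `V_∞`** for the level `N`, reductions in `NmF N A`. -/
theorem nmG3Oo (N : ℕ) [NeZero N] (ℓ : ℕ) [Fact ℓ.Prime] (A : ValuationSubring Qb)
    (hA : A.LiesOverPrime ℓ) (V : Submodule Qb (FLb N)) (hV : FiniteDimensional Qb V) :
    ∃ u : Fin (Module.finrank Qb V) → gaussOBar N A, (∀ i, ((u i : gaussOBar N A) : FLb N) ∈ V) ∧
      LinearIndependent (kRes A) (fun i => nmRedOo N A (u i)) := by
  classical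
  obtain ⟨u, hu, hli⟩ := gaussLattice N ℓ A hA V hV
  refine ⟨u, hu, ?_⟩
  rw [Fintype.linearIndependent_iff] at hli ⊢
  intro g hg
  apply hli g
  have h1 := congrArg (fun z : NmF N A => (z : LaurentSeries (kRes A))) hg
  simp only [ZeroMemClass.coe_zero] at h1
  rw [← h1]
  rw [AddSubmonoidClass.coe_finsetSum]
  refine Finset.sum_congr rfl fun i _ => ?_
  rw [Algebra.smul_def, MulMemClass.coe_mul, coe_nmAlgebraMap, coe_nmRedOo,
    ← HahnSeries.C_mul_eq_smul, algebraMap_laurentSeries_eq_single]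
  rfl

/-- **(G3) at `V_0 = W⁻¹ V_∞`.** -/
theorem nmG3Zero (M p : ℕ) [NeZero M] [NeZero p] [Fact p.Prime] (hcop : Nat.Coprime M p)
    (A : ValuationSubring Qb) (hA : A.LiesOverPrime p)
    (V : Submodule Qb (FLb (M * p))) (hV : FiniteDimensional Qb V) :
    ∃ u : Fin (Module.finrank Qb V) → nmV0 M p hcop A,
      (∀ i, ((u i : nmV0 M p hcop A) : FLb (M * p)) ∈ V) ∧
      LinearIndependent (kRes A) (fun i => nmRed0 M p hcop A (u i)) := by
  classical
  have hfin : FiniteDimensional Qb
      (V.map ((nmW M p hcop).toLinearEquiv : FLb (M * p) →ₗ[Qb] FLb (M * p))) := by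
    infer_instance
  have hrank : Module.finrank Qb
      (V.map ((nmW M p hcop).toLinearEquiv : FLb (M * p) →ₗ[Qb] FLb (M * p))) =
      Module.finrank Qb V := LinearEquiv.finrank_map_eq (nmW M p hcop).toLinearEquiv V
  obtain ⟨u, hu, hli⟩ := nmG3Oo (M * p) p A hA _ hfin
  -- pull back by `W`
  have hmem : ∀ i : Fin (Module.finrank Qb V),
      ∃ x : FLb (M * p), x ∈ V ∧ nmW M p hcop x = (u (Fin.cast hrank.symm i) : FLb (M * p)) := by
    intro i
    obtain ⟨x, hx, hxe⟩ := Submodule.mem_map.1 (hu (Fin.cast hrank.symm i))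
    exact ⟨x, hx, hxe⟩
  choose x hxV hxW using hmem
  have hx0 : ∀ i, x i ∈ nmV0 M p hcop A := by
    intro i
    rw [mem_nmV0_iff, hxW i]
    exact (u _).2
  refine ⟨fun i => ⟨x i, hx0 i⟩, hxV, ?_⟩
  have hred : (fun i => nmRed0 M p hcop A ⟨x i, hx0 i⟩) =
      fun i => nmRedOo (M * p) A (u (Fin.cast hrank.symm i)) := by
    funext i
    rw [nmRed0_apply]
    congr 1
    exact Subtype.ext (hxW i)
  rw [hred]
  exact hli.comp (fun i => Fin.cast hrank.symm i) (Fin.cast_injective _)

/-- **Row 1163, B1-LATT : the pair lattice property (M5) for `nmG`.** -/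
theorem nmLattice (M p : ℕ) [NeZero M] [NeZero p] (hSoft : NmSoftStatement M p) :
    NmLatticeStatement M p := by
  classical
  intro A h f hf
  have : Fact p.Prime := ⟨h.prime⟩
  obtain ⟨s1, s2, s3, -, -, s6, -⟩ := hSoft A h
  refine lattice_of_single A (gaussOBar (M * p) A) (nmV0 M p h.cop A) (nmRedOo (M * p) A)
    (nmRed0 M p h.cop A) s1 s2 s3 s6 f ?_
  -- the single-valuation normalisation from (G3) at the plane `⟨1, f⟩`
  have hfin : FiniteDimensional Qb (Submodule.span Qb ({1, f} : Set (FLb (M * p)))) :=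
    FiniteDimensional.span_of_finite Qb (Set.toFinite _)
  have hrank : Module.finrank Qb (Submodule.span Qb ({1, f} : Set (FLb (M * p)))) = 2 :=
    Fermat.Agent.H14.ORD.pl_finrank_span f hf
  obtain ⟨u, hu, hli⟩ := nmG3Oo (M * p) p A h.liesOver _ hfin
  refine single_of_plane A (gaussOBar (M * p) A) (nmRedOo (M * p) A) s1 s3 f
    (fun i => u (Fin.cast hrank.symm i)) (fun i => ?_)
    (hli.comp (fun i => Fin.cast hrank.symm i) (Fin.cast_injective _))
  obtain ⟨b, a, hab⟩ := Submodule.mem_span_pair.1 (hu (Fin.cast hrank.symm i))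
  refine ⟨a, b, ?_⟩
  rw [← hab, Algebra.smul_def, Algebra.smul_def, mul_one, add_comm]

/-- **The pair lattice statement (G3) for `nmG`** : every finite-dimensional `V` has `dim V`
elements of `V ∩ V_∞ ∩ V_0` whose pairs of reductions are `k`-linearly independent. -/
theorem nmPairG3 (M p : ℕ) [NeZero M] [NeZero p] (hSoft : NmSoftStatement M p)
    (A : ValuationSubring Qb) (h : NmSetup M p A)
    (V : Submodule Qb (FLb (M * p))) (hV : FiniteDimensional Qb V) :
    ∃ (ua : Fin (Module.finrank Qb V) → gaussOBar (M * p) A)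
      (ub : Fin (Module.finrank Qb V) → nmV0 M p h.cop A),
      (∀ i, (ua i : FLb (M * p)) = (ub i : FLb (M * p))) ∧ (∀ i, (ua i : FLb (M * p)) ∈ V) ∧
      LinearIndependent (kRes A) (fun i =>
        ((nmRedOo (M * p) A (ua i), nmRed0 M p h.cop A (ub i)) :
          NmF (M * p) A × NmF (M * p) A)) := by
  have : Fact p.Prime := ⟨h.prime⟩
  obtain ⟨s1, s2, s3, s4, -⟩ := hSoft A h
  exact pairG3_abs (fun c hc => (s1 c).2 hc) s3 (fun c hc => (s2 c).2 hc) s4
    (fun V hV => nmG3Oo (M * p) p A h.liesOver V hV)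
    (fun V hV => nmG3Zero M p h.cop A h.liesOver V hV) V hV

end Fermat.Agent.H23.ORD
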