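import Fermat.Agent.H23.ORD.NodeCountGe
import Fermat.Agent.H23.ORD.NmLattice
import Fermat.Agent.H72.ORD.NodalBlocks

/-!
# P-ORD, block B1 (helper23): the node count `genus_eq` from its easy half

* `nodal_genus_ge_rr` : `genusFF F_∞ + genusFF F_0 + s ≤ g + 1` in the `RRHyp` / `genusFF` form
  of `Fermat.Agent.H72.ORD.NodalSetup`;
* `nodal_genus_ge_of_lift` : the same, the two base places being supplied by (PT) of `NodalLift`;
* `nodal_genus_eq_of_le` : **`genus_eq`** (verbatim the field of `H72.ORD.NodalSetup`) from the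
  inequality `g + 1 ≤ g_∞ + g_0 + s` (the (LIFT) half, [NC]) and the pair lattice statement;
* `nm_genus_ge`, `nm_genus_eq_of_le` : the instance `nmG` of `X₀(M p)`, where the pair lattice
  statement is `Fermat.Agent.H23.ORD.nmPairG3`.
-/

set_option autoImplicit false
set_option linter.unusedSectionVars false
set_option linter.style.haveILetI false
set_option synthInstance.maxHeartbeats 400000

noncomputable section

open AlgebraicCurve ModularCurve

namespace Fermat.Agent.H23.ORD

open Fermat.Agent.H72.FF Fermat.Agent.H18.ORD Fermat.Agent.H27.ESD Fermat.Agent.H84.ORD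
  Fermat.Agent.H66

variable {N p : ℕ} {A : ValuationSubring Qb} {Foo F0 : Type} [Field Foo] [Field F0]
  [Algebra (kRes A) Foo] [Algebra (kRes A) F0] {ι : Type} {G : NodalData N A Foo F0 ι}

/-- the pair lattice statement (G3) of a nodal reduction -/
def NodalPairG3 (G : NodalData N A Foo F0 ι) : Prop :=
  ∀ V : Submodule Qb (FLb N), FiniteDimensional Qb V →
    ∃ (ua : Fin (Module.finrank Qb V) → G.Voo) (ub : Fin (Module.finrank Qb V) → G.V0),
      (∀ i, (ua i : FLb N) = (ub i : FLb N)) ∧ (∀ i, (ua i : FLb N) ∈ V) ∧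
      LinearIndependent (kRes A) (fun i => ((G.redOo (ua i), G.red0 (ub i)) : Foo × F0))

/-- **Semicontinuity half of the node count**, `RRHyp` / `genusFF` form. -/
theorem nodal_genus_ge_rr (H : NodalRvHyp p G) (hp : p.Prime) (hA : A.LiesOverPrime p)
    [Finite ι] [Infinite (kRes A)] {g : ℕ} (pkL : RiemannPackage Qb (FLb N) g)
    (rrOo : Fermat.Agent.H58.RRHyp (kRes A) Foo) (rrZero : Fermat.Agent.H58.RRHyp (kRes A) F0)
    {Poo P0 : Place Qb (FLb N)} {Qoo : Place (kRes A) Foo} {Q0 : Place (kRes A) F0}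
    (hPoo : G.r Poo = NPt.oo Qoo) (hP0 : G.r P0 = NPt.zero Q0) (hpair : NodalPairG3 G) :
    genusFF (kRes A) Foo + genusFF (kRes A) F0 + Nat.card ι ≤ g + 1 :=
  nodal_genus_ge H hp hA pkL (riemannPackage_of_rrHyp rrOo) (riemannPackage_of_rrHyp rrZero)
    hPoo hP0 hpair

/-- a smooth point of `C_∞` -/
theorem exists_smooth_oo [Finite ι] [Infinite (kRes A)]
    (rrOo : Fermat.Agent.H58.RRHyp (kRes A) Foo) (G : NodalData N A Foo F0 ι) :
    ∃ Q : Place (kRes A) Foo, Q ∉ Set.range G.nOo := by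
  haveI := (riemannPackage_of_rrHyp rrOo).infinite_places
  exact (Set.finite_range G.nOo).exists_notMem

/-- a smooth point of `C_0` -/
theorem exists_smooth_zero [Finite ι] [Infinite (kRes A)]
    (rrZero : Fermat.Agent.H58.RRHyp (kRes A) F0) (G : NodalData N A Foo F0 ι) :
    ∃ Q : Place (kRes A) F0, Q ∉ Set.range G.n0 := by
  haveI := (riemannPackage_of_rrHyp rrZero).infinite_places
  exact (Set.finite_range G.n0).exists_notMem

/-- **Semicontinuity half of the node count**, base places from (PT). -/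
theorem nodal_genus_ge_of_lift (H : NodalRvHyp p G) (hp : p.Prime) (hA : A.LiesOverPrime p)
    [Finite ι] [Infinite (kRes A)] {g : ℕ} (pkL : RiemannPackage Qb (FLb N) g)
    (rrOo : Fermat.Agent.H58.RRHyp (kRes A) Foo) (rrZero : Fermat.Agent.H58.RRHyp (kRes A) F0)
    (hL : NodalLift G) (hpair : NodalPairG3 G) :
    genusFF (kRes A) Foo + genusFF (kRes A) F0 + Nat.card ι ≤ g + 1 := by
  obtain ⟨Qoo, hQoo⟩ := exists_smooth_oo rrOo G
  obtain ⟨Q0, hQ0⟩ := exists_smooth_zero rrZero G
  obtain ⟨Poo, hPoo, -⟩ := hL.pt_oo Qoo hQoo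
  obtain ⟨P0, hP0, -⟩ := hL.pt_zero Q0 hQ0
  exact nodal_genus_ge_rr H hp hA pkL rrOo rrZero hPoo hP0 hpair

/-- **`genus_eq` from its (LIFT) half** : verbatim the field `genus_eq` of
`Fermat.Agent.H72.ORD.NodalSetup`. -/
theorem nodal_genus_eq_of_le (H : NodalRvHyp p G) (hp : p.Prime) (hA : A.LiesOverPrime p)
    [Finite ι] [Infinite (kRes A)] {g : ℕ} (pkL : RiemannPackage Qb (FLb N) g)
    (rrOo : Fermat.Agent.H58.RRHyp (kRes A) Foo) (rrZero : Fermat.Agent.H58.RRHyp (kRes A) F0)
    (hL : NodalLift G) (hpair : NodalPairG3 G)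
    (hle : g + 1 ≤ genusFF (kRes A) Foo + genusFF (kRes A) F0 + Nat.card ι) :
    g + 1 = genusFF (kRes A) Foo + genusFF (kRes A) F0 + Nat.card ι :=
  le_antisymm hle (nodal_genus_ge_of_lift H hp hA pkL rrOo rrZero hL hpair)

/-! ### The instance `nmG` -/

/-- the pair lattice statement for `nmG` -/
theorem nm_nodalPairG3 (M p : ℕ) [NeZero M] [NeZero p] (hSoft : NmSoftStatement M p)
    (A : ValuationSubring Qb) (h : NmSetup M p A) (htot : NmTot M p h.cop A) :
    NodalPairG3 (nmG htot) :=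
  fun V hV => nmPairG3 M p hSoft A h V hV

/-- **Semicontinuity half of the node count for `nmG`.** -/
theorem nm_genus_ge (M p : ℕ) [NeZero M] [NeZero p] (hSoft : NmSoftStatement M p)
    (A : ValuationSubring Qb) (h : NmSetup M p A) (htot : NmTot M p h.cop A)
    (H : NodalRvHyp p (nmG htot)) [Finite (NmNode M p h.cop A)] {g goo g0 : ℕ}
    (pkL : RiemannPackage Qb (FLb (M * p)) g)
    (pkOo : RiemannPackage (kRes A) (NmF (M * p) A) goo)
    (pk0 : RiemannPackage (kRes A) (NmF (M * p) A) g0)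
    {Poo P0 : Place Qb (FLb (M * p))} {Qoo Q0 : Place (kRes A) (NmF (M * p) A)}
    (hPoo : (nmG htot).r Poo = NPt.oo Qoo) (hP0 : (nmG htot).r P0 = NPt.zero Q0) :
    goo + g0 + Nat.card (NmNode M p h.cop A) ≤ g + 1 :=
  nodal_genus_ge H h.prime h.liesOver pkL pkOo pk0 hPoo hP0 (nm_nodalPairG3 M p hSoft A h htot)

/-- **`genus_eq` for `nmG` from its (LIFT) half.** -/
theorem nm_genus_eq_of_le (M p : ℕ) [NeZero M] [NeZero p] (hSoft : NmSoftStatement M p)
    (A : ValuationSubring Qb) (h : NmSetup M p A) (htot : NmTot M p h.cop A)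
    (H : NodalRvHyp p (nmG htot)) [Finite (NmNode M p h.cop A)] [Infinite (kRes A)] {g : ℕ}
    (pkL : RiemannPackage Qb (FLb (M * p)) g)
    (rrOo : Fermat.Agent.H58.RRHyp (kRes A) (NmF (M * p) A))
    (hL : NodalLift (nmG htot))
    (hle : g + 1 ≤ genusFF (kRes A) (NmF (M * p) A) + genusFF (kRes A) (NmF (M * p) A) +
      Nat.card (NmNode M p h.cop A)) :
    g + 1 = genusFF (kRes A) (NmF (M * p) A) + genusFF (kRes A) (NmF (M * p) A) +
      Nat.card (NmNode M p h.cop A) :=
  nodal_genus_eq_of_le H h.prime h.liesOver pkL rrOo rrOo hL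
    (nm_nodalPairG3 M p hSoft A h htot) hle

end Fermat.Agent.H23.ORD
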