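import Fermat.Agent.H58.RR.Riemann

/-!
# P-ORD, block B1, row [DVR], step D1 : valuation rings of a function field are discrete (helper23)

`F / K` a function field in the sense of `Fermat.Agent.H58.RRHyp` (all places of degree one,
principal divisors of degree zero; only these two facts and the existence of one place are
used).  Every valuation subring `V ≠ ⊤` of `F` containing the constants is a principal ideal
ring, i.e. (the valuation ring of) a place of `F / K`.

* `vd_isPrincipalIdealRing_of_powRel` (Mathlib only) : if `x ∈ 𝔪_V`, `x ≠ 0` and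
  `v(y)^N ∈ v(x)^ℤ` for all `y ≠ 0`, then `V` is a principal ideal ring
  (the divisibility order is well founded; `IsBezout.TFAE`);
* `vd_exists_relation` (Riemann-Roch counting) : `1, y, …, y^d` are linearly dependent over
  `K[x]`, `d = deg (x)_∞`;
* `vd_powRel` : hence `v(y)^(d!) ∈ v(x)^ℤ` (ultrametric inequality);
* **`valDisc`** : `RRHyp K F → (∀ c, algebraMap K F c ∈ V) → V ≠ ⊤ → IsPrincipalIdealRing V`;
* **`exists_place_of_valuationSubring`** : `∃ Q : Place K F, Q.toValuationSubring = V`.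
-/

set_option autoImplicit false
set_option linter.style.haveILetI false

noncomputable section

open AlgebraicCurve

namespace Fermat.Agent.H23.ORD

/-! ### Ordered groups with zero -/

section abs

variable {Γ : Type*} [LinearOrderedCommGroupWithZero Γ]

theorem vd_pow_lt_one {a : Γ} (ha : a < 1) {n : ℕ} (hn : n ≠ 0) : a ^ n < 1 :=
  pow_lt_one₀ zero_le ha hn

theorem vd_pow_strictAnti {a : Γ} (ha0 : a ≠ 0) (ha : a < 1) {m n : ℕ} (h : m < n) :
    a ^ n < a ^ m :=
  pow_lt_pow_right_of_lt_one₀ (zero_lt_iff.2 ha0) ha h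

theorem vd_pow_inj {a : Γ} (ha0 : a ≠ 0) (ha : a < 1) {m n : ℕ} (h : a ^ m = a ^ n) : m = n := by
  rcases lt_trichotomy m n with h1 | h1 | h1
  · exact absurd h (ne_of_gt (vd_pow_strictAnti ha0 ha h1))
  · exact h1
  · exact absurd h (ne_of_lt (vd_pow_strictAnti ha0 ha h1))

theorem vd_zpow_nonneg_of_le_one {a : Γ} (ha0 : a ≠ 0) (ha : a < 1) {m : ℤ} (h : a ^ m ≤ 1) :
    0 ≤ m := by
  by_contra hm
  rw [not_le] at hm
  obtain ⟨k, hk⟩ : ∃ k : ℕ, m = -(k : ℤ) := ⟨(-m).toNat, by omega⟩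
  have hk0 : k ≠ 0 := by rintro rfl; simp at hk; omega
  rw [hk, zpow_neg, zpow_natCast] at h
  have h1 : a ^ k < 1 := vd_pow_lt_one ha hk0
  have h2 : a ^ k ≠ 0 := pow_ne_zero _ ha0
  have h3 : 1 < (a ^ k)⁻¹ := (one_lt_inv₀ (zero_lt_iff.2 h2)).2 h1
  exact absurd h (not_le.2 h3)

/-- from `a^m₁ b^j₁ = a^m₂ b^j₂` with `j₁ < j₂ ≤ d` : `b^(d!)` is an integral power of `a` -/
theorem vd_factorial_rel_aux {a b : Γ} (ha : a ≠ 0) (hb : b ≠ 0) {m₁ m₂ j₁ j₂ d : ℕ}
    (h : a ^ m₁ * b ^ j₁ = a ^ m₂ * b ^ j₂) (hlt : j₁ < j₂) (hd : j₂ ≤ d) :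
    ∃ m : ℤ, b ^ d.factorial = a ^ m := by
  obtain ⟨e, rfl⟩ : ∃ e, j₂ = j₁ + e := ⟨j₂ - j₁, by omega⟩
  have he0 : 0 < e := by omega
  have hed : e ≤ d := by omega
  have h1 : b ^ e = a ^ ((m₁ : ℤ) - m₂) := by
    rw [pow_add, ← mul_assoc, mul_comm (a ^ m₂), mul_assoc] at h
    have h2 : a ^ m₁ = a ^ m₂ * b ^ e := by
      have hbj : b ^ j₁ ≠ 0 := pow_ne_zero _ hb
      rw [mul_comm (a ^ m₁)] at h
      exact mul_left_cancel₀ hbj h
    rw [zpow_sub₀ ha, zpow_natCast, zpow_natCast, h2]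
    field_simp
  obtain ⟨q, hq⟩ := Nat.dvd_factorial he0 hed
  refine ⟨((m₁ : ℤ) - m₂) * q, ?_⟩
  rw [hq, pow_mul, h1, zpow_mul, zpow_natCast]

theorem vd_factorial_rel {a b : Γ} (ha : a ≠ 0) (hb : b ≠ 0) {m₁ m₂ j₁ j₂ d : ℕ}
    (h : a ^ m₁ * b ^ j₁ = a ^ m₂ * b ^ j₂) (hne : j₁ ≠ j₂) (hd₁ : j₁ ≤ d) (hd₂ : j₂ ≤ d) :
    ∃ m : ℤ, b ^ d.factorial = a ^ m := by
  rcases lt_or_gt_of_ne hne with h1 | h1
  · exact vd_factorial_rel_aux ha hb h h1 hd₂
  · exact vd_factorial_rel_aux ha hb h.symm h1 hd₁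

end abs

/-! ### The ultrametric inequality -/

section ultra

variable {F : Type*} [Field F] {Γ : Type*} [LinearOrderedCommGroupWithZero Γ]

/-- ultrametric: in a vanishing finite sum with a nonzero term, two distinct nonzero terms have
the same valuation -/
theorem vd_exists_eq_val (v : Valuation F Γ) {ι : Type*} [Fintype ι] [DecidableEq ι]
    (T : ι → F) (hsum : ∑ j, T j = 0) (j₀ : ι) (hj₀ : T j₀ ≠ 0) :
    ∃ j₁ j₂ : ι, j₁ ≠ j₂ ∧ T j₁ ≠ 0 ∧ T j₂ ≠ 0 ∧ v (T j₁) = v (T j₂) := by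
  obtain ⟨j₁, -, hmax⟩ := Finset.exists_max_image Finset.univ (fun j => v (T j))
    ⟨j₀, Finset.mem_univ _⟩
  have hj₁ : T j₁ ≠ 0 := by
    intro h0
    have h1 := hmax j₀ (Finset.mem_univ _)
    simp only [h0, map_zero] at h1
    exact hj₀ ((map_eq_zero v).1 (le_antisymm h1 zero_le))
  by_contra hcon
  have hlt : ∀ j ∈ Finset.univ.erase j₁, v (T j) < v (T j₁) := by
    intro j hj
    have hjne : j ≠ j₁ := Finset.ne_of_mem_erase hj
    refine lt_of_le_of_ne (hmax j (Finset.mem_univ _)) ?_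
    intro heq
    by_cases hTj : T j = 0
    · rw [hTj, map_zero] at heq
      exact hj₁ ((map_eq_zero v).1 heq.symm)
    · exact hcon ⟨j₁, j, Ne.symm hjne, hj₁, hTj, heq.symm⟩
  have h1 : v (∑ j ∈ Finset.univ.erase j₁, T j) < v (T j₁) :=
    Valuation.map_sum_lt v ((map_ne_zero v).2 hj₁) hlt
  have h2 : T j₁ + ∑ j ∈ Finset.univ.erase j₁, T j = 0 := by
    rw [Finset.add_sum_erase _ _ (Finset.mem_univ j₁)]
    exact hsum
  have h3 : ∑ j ∈ Finset.univ.erase j₁, T j = - T j₁ := by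
    rw [eq_neg_iff_add_eq_zero, add_comm]
    exact h2
  rw [h3, Valuation.map_neg] at h1
  exact lt_irrefl _ h1

end ultra

/-! ### Discreteness from a power relation (Mathlib only) -/

section main

variable {F : Type*} [Field F]

/-- natural exponent: for `y ∈ V`, `y ≠ 0`, `v(y)^N = v(x)^w` with `w : ℕ` -/
theorem vd_exists_nat (V : ValuationSubring F) (x : F) (hx0 : x ≠ 0) (hxV : x ∈ V.nonunits)
    (N : ℕ)
    (hrel : ∀ y : F, y ≠ 0 → ∃ m : ℤ, V.valuation y ^ N = V.valuation x ^ m)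
    (y : F) (hy : y ∈ V) (hy0 : y ≠ 0) :
    ∃ w : ℕ, V.valuation y ^ N = V.valuation x ^ w := by
  obtain ⟨m, hm⟩ := hrel y hy0
  have hvx0 : V.valuation x ≠ 0 := (map_ne_zero _).2 hx0
  have hvx1 : V.valuation x < 1 := (ValuationSubring.mem_nonunits_iff _).1 hxV
  have hvy : V.valuation y ≤ 1 := (ValuationSubring.valuation_le_one_iff _ _).2 hy
  have h1 : V.valuation y ^ N ≤ 1 := pow_le_one₀ zero_le hvy
  rw [hm] at h1
  have h2 := vd_zpow_nonneg_of_le_one hvx0 hvx1 h1
  refine ⟨m.toNat, ?_⟩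
  rw [hm, ← zpow_natCast, Int.toNat_of_nonneg h2]

open Classical in
/-- the measure: `w` with `v(y)^N = v(x)^w`, and `⊤` at `0` -/
def vdMeasure (V : ValuationSubring F) (x : F) (N : ℕ) (y : V) : WithTop ℕ :=
  if h : ∃ w : ℕ, V.valuation (y : F) ^ N = V.valuation x ^ w ∧ (y : F) ≠ 0 then
    ((Classical.choose h : ℕ) : WithTop ℕ) else ⊤

theorem vdMeasure_eq (V : ValuationSubring F) (x : F) (hx0 : x ≠ 0) (hxV : x ∈ V.nonunits)
    (N : ℕ) (y : V) (hy0 : (y : F) ≠ 0) (w : ℕ)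
    (hw : V.valuation (y : F) ^ N = V.valuation x ^ w) :
    vdMeasure V x N y = (w : WithTop ℕ) := by
  have hvx0 : V.valuation x ≠ 0 := (map_ne_zero _).2 hx0
  have hvx1 : V.valuation x < 1 := (ValuationSubring.mem_nonunits_iff _).1 hxV
  have h : ∃ w : ℕ, V.valuation (y : F) ^ N = V.valuation x ^ w ∧ (y : F) ≠ 0 := ⟨w, hw, hy0⟩
  rw [vdMeasure, dif_pos h]
  have h1 : V.valuation x ^ w = V.valuation x ^ Classical.choose h :=
    hw.symm.trans (Classical.choose_spec h).1
  rw [← vd_pow_inj hvx0 hvx1 h1]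

theorem vdMeasure_zero (V : ValuationSubring F) (x : F) (N : ℕ) :
    vdMeasure V x N 0 = ⊤ := by
  rw [vdMeasure, dif_neg]
  rintro ⟨w, -, h⟩
  exact h rfl

/-- **Discreteness from a power relation.**  If `x ∈ 𝔪_V`, `x ≠ 0`, and the `N`-th power of every
value is an integral power of the value of `x` (`N ≥ 1`), then `V` is a principal ideal ring. -/
theorem vd_isPrincipalIdealRing_of_powRel (V : ValuationSubring F) (x : F) (hx0 : x ≠ 0)
    (hxV : x ∈ V.nonunits) (N : ℕ) (hN : N ≠ 0)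
    (hrel : ∀ y : F, y ≠ 0 → ∃ m : ℤ, V.valuation y ^ N = V.valuation x ^ m) :
    IsPrincipalIdealRing V := by
  have hwf : WfDvdMonoid V := by
    refine ⟨Subrelation.wf (r := InvImage (· < ·) (vdMeasure V x N)) ?_
      (InvImage.wf _ wellFounded_lt)⟩
    rintro a b ⟨ha0, c, hc, rfl⟩
    show vdMeasure V x N a < vdMeasure V x N (a * c)
    have ha0' : (a : F) ≠ 0 := fun h => ha0 (Subtype.ext h)
    obtain ⟨wa, hwa⟩ := vd_exists_nat V x hx0 hxV N hrel a a.2 ha0'
    rw [vdMeasure_eq V x hx0 hxV N a ha0' wa hwa]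
    by_cases hc0 : (c : F) = 0
    · have : a * c = 0 := by
        apply Subtype.ext
        rw [Subring.coe_mul, hc0, mul_zero]
        rfl
      rw [this, vdMeasure_zero]
      exact WithTop.coe_lt_top _
    · obtain ⟨wc, hwc⟩ := vd_exists_nat V x hx0 hxV N hrel c c.2 hc0
      have hac0 : ((a * c : V) : F) ≠ 0 := by
        rw [Subring.coe_mul]
        exact mul_ne_zero ha0' hc0
      have hwac : V.valuation ((a * c : V) : F) ^ N = V.valuation x ^ (wa + wc) := by
        rw [Subring.coe_mul, map_mul, mul_pow, hwa, hwc, pow_add]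
      rw [vdMeasure_eq V x hx0 hxV N (a * c) hac0 (wa + wc) hwac]
      have hwc0 : wc ≠ 0 := by
        rintro rfl
        rw [pow_zero] at hwc
        have hvc : V.valuation (c : F) < 1 :=
          (ValuationSubring.valuation_lt_one_iff V c).1 ((IsLocalRing.mem_maximalIdeal c).2 hc)
        exact absurd hwc (ne_of_lt (vd_pow_lt_one hvc hN))
      exact_mod_cast Nat.lt_add_of_pos_right (Nat.pos_of_ne_zero hwc0)
  exact ((IsBezout.TFAE (R := V)).out 3 1).1 hwf

end main

/-! ### Riemann-Roch counting -/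

section RR

variable {K F : Type*} [Field K] [Field F] [Algebra K F]

/-- the pole divisor attached to the divisor `D` of a function -/
def vdPole (D : Divisor K F) : Divisor K F :=
  Finsupp.mapRange (fun k : ℤ => max (-k) 0) (by simp) D

theorem vdPole_apply (D : Divisor K F) (v : Place K F) : vdPole D v = max (-(D v)) 0 := by
  simp [vdPole]

theorem vdPole_nonneg (D : Divisor K F) : 0 ≤ vdPole D := by
  rw [Finsupp.le_def]
  intro v
  rw [vdPole_apply]
  exact le_max_right _ _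

theorem vd_ord_pow (v : Place K F) (f : F) (n : ℕ) : v.ord (f ^ n) = n * v.ord f := by
  have := v.ord_zpow f (n : ℤ)
  rwa [zpow_natCast] at this

/-- `xⁱ yʲ ∈ L(n (x)_∞ + m (y)_∞)` for `i ≤ n`, `j ≤ m` -/
theorem vd_mem_space {x y : F} (hx : x ≠ 0) (hy : y ≠ 0) (Dx Dy : Divisor K F)
    (hDx : ∀ v : Place K F, Dx v = v.ord x) (hDy : ∀ v : Place K F, Dy v = v.ord y)
    {n m i j : ℕ} (hi : i ≤ n) (hj : j ≤ m) :
    x ^ i * y ^ j ∈ riemannRochSpace (n • vdPole Dx + m • vdPole Dy) := by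
  rw [mem_riemannRochSpace_iff]
  intro v
  right
  rw [v.ord_mul (pow_ne_zero _ hx) (pow_ne_zero _ hy), vd_ord_pow, vd_ord_pow,
    Finsupp.add_apply, Finsupp.smul_apply, Finsupp.smul_apply, vdPole_apply, vdPole_apply,
    hDx, hDy, nsmul_eq_mul, nsmul_eq_mul]
  have h1 : -(v.ord x) ≤ max (-(v.ord x)) 0 := le_max_left _ _
  have h2 : (0 : ℤ) ≤ max (-(v.ord x)) 0 := le_max_right _ _
  have h3 : -(v.ord y) ≤ max (-(v.ord y)) 0 := le_max_left _ _
  have h4 : (0 : ℤ) ≤ max (-(v.ord y)) 0 := le_max_right _ _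
  have hi' : (i : ℤ) ≤ n := by exact_mod_cast hi
  have hj' : (j : ℤ) ≤ m := by exact_mod_cast hj
  have hi0 : (0 : ℤ) ≤ i := Int.natCast_nonneg _
  have hj0 : (0 : ℤ) ≤ j := Int.natCast_nonneg _
  nlinarith [mul_le_mul_of_nonneg_right hi' h2, mul_le_mul_of_nonneg_right hj' h4,
    mul_le_mul_of_nonneg_left h1 hi0, mul_le_mul_of_nonneg_left h3 hj0]

/-- `ℓ(D) ≤ deg D + 1` for `D ≥ 0` -/
theorem vd_finrank_le [HasPrincipalDivisors K F] (hdeg : ∀ v : Place K F, v.deg = 1)
    (v₀ : Place K F) {D : Divisor K F} (hD : 0 ≤ D) :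
    (Module.finrank K (riemannRochSpace D) : ℤ) ≤ Divisor.degree D + 1 := by
  have h := (Fermat.Agent.H58.rr_finrank_le_of_le hdeg v₀ hD).2
  rw [Fermat.Agent.H58.rr_finrank_zero hdeg v₀, map_zero] at h
  push_cast at h
  linarith

/-- **RR counting** : for `x, y ≠ 0` and `d = deg (x)_∞` there is a nontrivial `K`-linear
relation between the `xⁱ yʲ`, `i ≤ n`, `j ≤ d`. -/
theorem vd_exists_relation [HasPrincipalDivisors K F] (hdeg : ∀ v : Place K F, v.deg = 1)
    (v₀ : Place K F) {x y : F} (hx : x ≠ 0) (hy : y ≠ 0) (Dx : Divisor K F)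
    (hDx : ∀ v : Place K F, Dx v = v.ord x) :
    ∃ (n : ℕ) (g : Fin (n + 1) × Fin ((Divisor.degree (vdPole Dx)).toNat + 1) → K),
      (∃ ij, g ij ≠ 0) ∧ ∑ ij, g ij • (x ^ (ij.1 : ℕ) * y ^ (ij.2 : ℕ)) = 0 := by
  classical
  obtain ⟨Dy, hDy, -⟩ := HasPrincipalDivisors.exists_divisor (K := K) y hy
  set d : ℕ := (Divisor.degree (vdPole Dx)).toNat with hd
  set e : ℕ := (Divisor.degree (vdPole Dy)).toNat with he
  have hd' : Divisor.degree (vdPole Dx) = d :=
    (Int.toNat_of_nonneg (Fermat.Agent.H58.rr_degree_nonneg _ (vdPole_nonneg Dx))).symm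
  have he' : Divisor.degree (vdPole Dy) = e :=
    (Int.toNat_of_nonneg (Fermat.Agent.H58.rr_degree_nonneg _ (vdPole_nonneg Dy))).symm
  set n : ℕ := d * e + 1 with hn
  set D : Divisor K F := n • vdPole Dx + d • vdPole Dy with hD
  have hD0 : 0 ≤ D := add_nonneg (nsmul_nonneg (vdPole_nonneg Dx) _)
    (nsmul_nonneg (vdPole_nonneg Dy) _)
  haveI := Fermat.Agent.H58.rr_space_finite hdeg v₀ D
  have hdim := vd_finrank_le hdeg v₀ hD0
  have hdegD : Divisor.degree D = n * d + d * e := by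
    rw [hD, map_add, map_nsmul, map_nsmul, hd', he']
    simp
  refine ⟨n, ?_⟩
  let b : Fin (n + 1) × Fin (d + 1) → ↥(riemannRochSpace D) := fun ij =>
    ⟨x ^ (ij.1 : ℕ) * y ^ (ij.2 : ℕ),
      vd_mem_space hx hy Dx Dy hDx hDy (Nat.lt_succ_iff.1 ij.1.2) (Nat.lt_succ_iff.1 ij.2.2)⟩
  have hnot : ¬ LinearIndependent K b := by
    intro hli
    have h1 := hli.fintype_card_le_finrank
    rw [Fintype.card_prod, Fintype.card_fin, Fintype.card_fin] at h1
    have h2 : ((n + 1) * (d + 1) : ℤ) ≤ n * d + d * e + 1 := by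
      have : ((Module.finrank K ↥(riemannRochSpace D) : ℕ) : ℤ) ≤ n * d + d * e + 1 := by
        rw [← hdegD]; exact hdim
      have h3 : (((n + 1) * (d + 1) : ℕ) : ℤ) ≤ (Module.finrank K ↥(riemannRochSpace D) : ℤ) := by
        exact_mod_cast h1
      push_cast at h3
      linarith
    have h4 : (n : ℤ) = d * e + 1 := by rw [hn]; push_cast; ring
    nlinarith [Int.natCast_nonneg d, Int.natCast_nonneg e]
  rw [Fintype.not_linearIndependent_iff] at hnot
  obtain ⟨g, hg, hne⟩ := hnot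
  refine ⟨g, hne, ?_⟩
  have h5 := congrArg (fun t : ↥(riemannRochSpace D) => (t : F)) hg
  simpa [b, Submodule.coe_sum] using h5

end RR

/-! ### The power relation -/

section rel

variable {K F : Type*} [Field K] [Field F] [Algebra K F]

/-- nonzero constants are units of a valuation ring containing the constants -/
theorem vd_val_const (V : ValuationSubring F) (hK : ∀ c : K, algebraMap K F c ∈ V) {c : K}
    (hc : c ≠ 0) : V.valuation (algebraMap K F c) = 1 := by
  have h1 : V.valuation (algebraMap K F c) ≤ 1 :=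
    (ValuationSubring.valuation_le_one_iff _ _).2 (hK c)
  have h2 : V.valuation (algebraMap K F c⁻¹) ≤ 1 :=
    (ValuationSubring.valuation_le_one_iff _ _).2 (hK c⁻¹)
  have h3 : V.valuation (algebraMap K F c) * V.valuation (algebraMap K F c⁻¹) = 1 := by
    rw [← map_mul, ← map_mul, mul_inv_cancel₀ hc, map_one, map_one]
  have h0 : V.valuation (algebraMap K F c) ≠ 0 := (map_ne_zero _).2 ((map_ne_zero _).2 hc)
  apply le_antisymm h1
  by_contra hlt
  rw [not_le] at hlt
  have h4 : V.valuation (algebraMap K F c) * V.valuation (algebraMap K F c⁻¹) < 1 := by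
    calc V.valuation (algebraMap K F c) * V.valuation (algebraMap K F c⁻¹)
        ≤ V.valuation (algebraMap K F c) * 1 := mul_le_mul_right h2 _
      _ = V.valuation (algebraMap K F c) := mul_one _
      _ < 1 := hlt
  rw [h3] at h4
  exact lt_irrefl _ h4

/-- the valuation of a polynomial expression in `x ∈ 𝔪_V` is a power of the valuation of `x` -/
theorem vd_val_poly (V : ValuationSubring F) (hK : ∀ c : K, algebraMap K F c ∈ V) (x : F)
    (hx0 : x ≠ 0) (hxV : x ∈ V.nonunits) {n : ℕ} (a : Fin (n + 1) → K) (ha : ∃ i, a i ≠ 0) :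
    ∃ m : ℕ, V.valuation (∑ i, a i • x ^ (i : ℕ)) = V.valuation x ^ m := by
  classical
  have hvx0 : V.valuation x ≠ 0 := (map_ne_zero _).2 hx0
  have hvx1 : V.valuation x < 1 := (ValuationSubring.mem_nonunits_iff _).1 hxV
  set S : Finset (Fin (n + 1)) := Finset.univ.filter (fun i => a i ≠ 0) with hS
  have hSne : S.Nonempty := by
    obtain ⟨i, hi⟩ := ha
    exact ⟨i, Finset.mem_filter.2 ⟨Finset.mem_univ _, hi⟩⟩
  set m := S.min' hSne with hm
  have hmS : m ∈ S := Finset.min'_mem S hSne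
  have ham : a m ≠ 0 := (Finset.mem_filter.1 hmS).2
  have hmin : ∀ i, a i ≠ 0 → m ≤ i := fun i hi =>
    Finset.min'_le S i (Finset.mem_filter.2 ⟨Finset.mem_univ _, hi⟩)
  have hvm : V.valuation (a m • x ^ (m : ℕ)) = V.valuation x ^ (m : ℕ) := by
    rw [Algebra.smul_def, map_mul, vd_val_const V hK ham, one_mul, map_pow]
  have hrest : V.valuation (∑ i ∈ Finset.univ.erase m, a i • x ^ (i : ℕ)) <
      V.valuation x ^ (m : ℕ) := by
    apply Valuation.map_sum_lt _ (pow_ne_zero _ hvx0)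
    intro i hi
    have hine : i ≠ m := Finset.ne_of_mem_erase hi
    by_cases hai : a i = 0
    · rw [hai, zero_smul, map_zero]
      exact zero_lt_iff.2 (pow_ne_zero _ hvx0)
    · have hlt : (m : ℕ) < (i : ℕ) := by
        have h1 := hmin i hai
        exact lt_of_le_of_ne h1 (fun h => hine (Fin.ext h.symm))
      rw [Algebra.smul_def, map_mul, vd_val_const V hK hai, one_mul, map_pow]
      exact vd_pow_strictAnti hvx0 hvx1 hlt
  refine ⟨(m : ℕ), ?_⟩
  rw [← Finset.add_sum_erase _ _ (Finset.mem_univ m), ← hvm]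
  apply Valuation.map_add_eq_of_lt_left
  rw [hvm]
  exact hrest

/-- the power relation from a nontrivial relation between the `xⁱ yʲ`, `j ≤ d` -/
theorem vd_powRel_aux (V : ValuationSubring F) (hK : ∀ c : K, algebraMap K F c ∈ V) (x : F)
    (hx0 : x ≠ 0) (hxV : x ∈ V.nonunits) (y : F) (hy : y ≠ 0) (n d : ℕ)
    (g : Fin (n + 1) × Fin (d + 1) → K) (hg : ∃ ij, g ij ≠ 0)
    (hsum : ∑ ij, g ij • (x ^ (ij.1 : ℕ) * y ^ (ij.2 : ℕ)) = 0) :
    ∃ m : ℤ, V.valuation y ^ d.factorial = V.valuation x ^ m := by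
  classical
  have hvx0 : V.valuation x ≠ 0 := (map_ne_zero _).2 hx0
  have hvy0 : V.valuation y ≠ 0 := (map_ne_zero _).2 hy
  obtain ⟨ij₀, hij₀⟩ := hg
  -- the coefficients `A j ∈ K[x]` of `y ^ j`
  set A : Fin (d + 1) → F := fun j => ∑ i : Fin (n + 1), g (i, j) • x ^ (i : ℕ) with hA
  set T : Fin (d + 1) → F := fun j => A j * y ^ (j : ℕ) with hT
  have hsumT : ∑ j, T j = 0 := by
    rw [← hsum, Fintype.sum_prod_type_right]
    refine Finset.sum_congr rfl (fun j _ => ?_)
    rw [hT, hA]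
    simp only
    rw [Finset.sum_mul]
    refine Finset.sum_congr rfl (fun i _ => ?_)
    rw [smul_mul_assoc]
  have hAval : ∀ j, A j ≠ 0 → ∃ m : ℕ, V.valuation (A j) = V.valuation x ^ m := by
    intro j hj
    have hex : ∃ i, g (i, j) ≠ 0 := by
      by_contra hcon
      apply hj
      rw [hA]
      simp only
      refine Finset.sum_eq_zero (fun i _ => ?_)
      have : g (i, j) = 0 := by
        by_contra h
        exact hcon ⟨i, h⟩
      rw [this, zero_smul]
    exact vd_val_poly V hK x hx0 hxV (fun i => g (i, j)) hex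
  have hA0 : A ij₀.2 ≠ 0 := by
    obtain ⟨m, hm⟩ := vd_val_poly V hK x hx0 hxV (fun i => g (i, ij₀.2)) ⟨ij₀.1, hij₀⟩
    intro h0
    have h1 : V.valuation (A ij₀.2) = V.valuation x ^ m := hm
    rw [h0, map_zero] at h1
    exact pow_ne_zero _ hvx0 h1.symm
  have hT0 : T ij₀.2 ≠ 0 := mul_ne_zero hA0 (pow_ne_zero _ hy)
  obtain ⟨j₁, j₂, hne, h1, h2, heq⟩ := vd_exists_eq_val V.valuation T hsumT ij₀.2 hT0
  have hA1 : A j₁ ≠ 0 := left_ne_zero_of_mul h1
  have hA2 : A j₂ ≠ 0 := left_ne_zero_of_mul h2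
  obtain ⟨m₁, hm₁⟩ := hAval j₁ hA1
  obtain ⟨m₂, hm₂⟩ := hAval j₂ hA2
  have hrel : V.valuation x ^ m₁ * V.valuation y ^ (j₁ : ℕ) =
      V.valuation x ^ m₂ * V.valuation y ^ (j₂ : ℕ) := by
    have := heq
    rw [hT] at this
    simp only [map_mul, map_pow] at this
    rw [hm₁, hm₂] at this
    exact this
  exact vd_factorial_rel hvx0 hvy0 hrel (fun h => hne (Fin.ext h))
    (Nat.lt_succ_iff.1 j₁.2) (Nat.lt_succ_iff.1 j₂.2)

/-- **The power relation** : `v(y)^(d!)` is an integral power of `v(x)`, `d = deg (x)_∞`. -/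
theorem vd_powRel [HasPrincipalDivisors K F] (hdeg : ∀ v : Place K F, v.deg = 1)
    (v₀ : Place K F) (V : ValuationSubring F) (hK : ∀ c : K, algebraMap K F c ∈ V) (x : F)
    (hx0 : x ≠ 0) (hxV : x ∈ V.nonunits) (Dx : Divisor K F)
    (hDx : ∀ v : Place K F, Dx v = v.ord x) (y : F) (hy : y ≠ 0) :
    ∃ m : ℤ, V.valuation y ^ ((Divisor.degree (vdPole Dx)).toNat).factorial =
      V.valuation x ^ m := by
  obtain ⟨n, g, hg, hsum⟩ := vd_exists_relation hdeg v₀ hx0 hy Dx hDx
  exact vd_powRel_aux V hK x hx0 hxV y hy n _ g hg hsum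

end rel

/-! ### The theorems -/

section thm

variable {K F : Type*} [Field K] [Field F] [Algebra K F]

/-- **D1, elementary form** : all places of degree one, principal divisors, one place. -/
theorem valDisc_of_deg_one [HasPrincipalDivisors K F] (hdeg : ∀ v : Place K F, v.deg = 1)
    (v₀ : Place K F) (V : ValuationSubring F) (hK : ∀ c : K, algebraMap K F c ∈ V)
    (hV : V ≠ ⊤) : IsPrincipalIdealRing V := by
  obtain ⟨y, hy⟩ : ∃ y : F, y ∉ V := by
    by_contra hcon
    apply hV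
    rw [eq_top_iff]
    intro y _
    by_contra hy
    exact hcon ⟨y, hy⟩
  have hy0 : y ≠ 0 := fun h => hy (h ▸ V.zero_mem)
  have hx0 : y⁻¹ ≠ 0 := inv_ne_zero hy0
  have hxV : y⁻¹ ∈ V.nonunits := by
    rw [ValuationSubring.mem_nonunits_iff, map_inv₀]
    have h1 : ¬ V.valuation y ≤ 1 := fun h => hy ((ValuationSubring.valuation_le_one_iff _ _).1 h)
    exact inv_lt_one_of_one_lt₀ (not_le.1 h1)
  obtain ⟨Dx, hDx, -⟩ := HasPrincipalDivisors.exists_divisor (K := K) y⁻¹ hx0
  exact vd_isPrincipalIdealRing_of_powRel V y⁻¹ hx0 hxV _ (Nat.factorial_ne_zero _)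
    (fun z hz => vd_powRel hdeg v₀ V hK y⁻¹ hx0 hxV Dx hDx z hz)

/-- **D1 (valDisc)** : a valuation subring `V ≠ ⊤` of a function field `F / K` containing the
constants is a principal ideal ring. -/
theorem valDisc (hRR : Fermat.Agent.H58.RRHyp K F) (V : ValuationSubring F)
    (hK : ∀ c : K, algebraMap K F c ∈ V) (hV : V ≠ ⊤) : IsPrincipalIdealRing V := by
  haveI := hRR.principal
  obtain ⟨v₀⟩ := hRR.exists_place
  exact valDisc_of_deg_one hRR.deg_one v₀ V hK hV

/-- the place attached to a valuation subring -/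
def placeOfValDisc (hRR : Fermat.Agent.H58.RRHyp K F) (V : ValuationSubring F)
    (hK : ∀ c : K, algebraMap K F c ∈ V) (hV : V ≠ ⊤) : Place K F where
  toValuationSubring := V
  algebraMap_mem' := hK
  ne_top' := hV
  isPrincipalIdealRing' := valDisc hRR V hK hV

theorem placeOfValDisc_toValuationSubring (hRR : Fermat.Agent.H58.RRHyp K F)
    (V : ValuationSubring F) (hK : ∀ c : K, algebraMap K F c ∈ V) (hV : V ≠ ⊤) :
    (placeOfValDisc hRR V hK hV).toValuationSubring = V := rfl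

/-- **Every valuation subring of `F / K` (containing `K`, `≠ ⊤`) is a place.** -/
theorem exists_place_of_valuationSubring (hRR : Fermat.Agent.H58.RRHyp K F)
    (V : ValuationSubring F) (hK : ∀ c : K, algebraMap K F c ∈ V) (hV : V ≠ ⊤) :
    ∃ Q : Place K F, Q.toValuationSubring = V :=
  ⟨placeOfValDisc hRR V hK hV, rfl⟩

end thm

end Fermat.Agent.H23.ORD

end
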